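import Fermat.Prelude.Def_GaloisRep_StrictOrdinary
import Fermat.Prelude.Def_GaloisRep_Flat
import Fermat.Agent.Deform.MatRep
import Mathlib.Algebra.DualNumber

/-!
# Tangent cocycles for Taylor–Wiles primes

A continuous cocycle `c` with values in `ad⁰` of a matrix representation `M` over a field gives
the first order deformation `σ ↦ (1 + ε c σ) M σ` (`liftRep`). `LocalTangentBound M D cond d`
bounds the restrictions to `D` of the cocycles satisfying `cond` by a space of dimension `d`.
-/

set_option autoImplicit false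

noncomputable section

namespace FLTAgent.TW

open Matrix IsLocalRing FLTAgent.Deform
open scoped DualNumber

variable {k : Type} [Field k]

local notation "𝕄" => Matrix (Fin 2) (Fin 2) k

/-- The adjoint action. -/
def adAct (M : MatRep k) (σ : GQ) (X : 𝕄) : 𝕄 := M σ * X * M σ⁻¹

theorem mul_inv_eq_one (M : MatRep k) (σ : GQ) : M σ * M σ⁻¹ = 1 := by
  rw [← map_mul, mul_inv_cancel, map_one]

theorem inv_mul_eq_one (M : MatRep k) (σ : GQ) : M σ⁻¹ * M σ = 1 := by
  rw [← map_mul, inv_mul_cancel, map_one]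

theorem trace_adAct (M : MatRep k) (σ : GQ) (X : 𝕄) : (adAct M σ X).trace = X.trace := by
  rw [adAct, Matrix.trace_mul_comm, ← Matrix.mul_assoc, inv_mul_eq_one, one_mul]

/-- Continuous `ad⁰`-valued cocycles. -/
structure IsTangentCocycle (M : MatRep k) (c : GQ → 𝕄) : Prop where
  map_mul : ∀ σ τ, c (σ * τ) = c σ + adAct M σ (c τ)
  trace_eq_zero : ∀ σ, (c σ).trace = 0
  exists_level : ∃ L : IntermediateField ℚ (AlgebraicClosure ℚ), FiniteDimensional ℚ L ∧
    ∀ σ : GQ, (∀ x ∈ L, σ x = x) → c σ = 0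

/-- The space of tangent cocycles. -/
def tangentCocycles (M : MatRep k) : Submodule k (GQ → 𝕄) where
  carrier := {c | IsTangentCocycle M c}
  zero_mem' := ⟨fun σ τ => by simp [adAct], fun σ => by simp, ⊥, inferInstance, fun _ _ => rfl⟩
  add_mem' := by
    intro c d hc hd
    refine ⟨fun σ τ => ?_, fun σ => ?_, ?_⟩
    · simp only [Pi.add_apply, hc.map_mul, hd.map_mul, adAct, mul_add, add_mul]; abel
    · simp only [Pi.add_apply, trace_add, hc.trace_eq_zero, hd.trace_eq_zero, add_zero]
    · obtain ⟨L, hL, h1⟩ := hc.exists_level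
      obtain ⟨L', hL', h2⟩ := hd.exists_level
      refine ⟨L ⊔ L', inferInstance, fun σ hσ => ?_⟩
      rw [Pi.add_apply, h1 σ fun x hx => hσ x ((le_sup_left : L ≤ L ⊔ L') hx),
        h2 σ fun x hx => hσ x ((le_sup_right : L' ≤ L ⊔ L') hx), add_zero]
  smul_mem' := by
    intro a c hc
    refine ⟨fun σ τ => ?_, fun σ => ?_, ?_⟩
    · simp only [Pi.smul_apply, hc.map_mul, adAct, smul_add, Matrix.mul_smul, Matrix.smul_mul]
    · simp only [Pi.smul_apply, trace_smul, hc.trace_eq_zero, smul_zero]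
    · obtain ⟨L, hL, h1⟩ := hc.exists_level
      exact ⟨L, hL, fun σ hσ => by rw [Pi.smul_apply, h1 σ hσ, smul_zero]⟩

/-- The coboundary of `X`. -/
def coboundary (M : MatRep k) : 𝕄 →ₗ[k] (GQ → 𝕄) where
  toFun X := fun σ => adAct M σ X - X
  map_add' X Y := funext fun σ => by simp only [Pi.add_apply, adAct, mul_add, add_mul]; abel
  map_smul' a X := funext fun σ => by
    simp only [Pi.smul_apply, RingHom.id_apply, adAct, Matrix.mul_smul, Matrix.smul_mul, smul_sub]

/-- Restriction of a function on the Galois group to a subgroup. -/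
def restrictTo (D : Subgroup GQ) : (GQ → 𝕄) →ₗ[k] (D → 𝕄) :=
  LinearMap.funLeft k 𝕄 (fun σ : D => (σ : GQ))

/-- The matrix in `k[ε]` with the given constant and `ε` part. -/
def epsMat (A B : 𝕄) : Matrix (Fin 2) (Fin 2) (DualNumber k) :=
  A.map TrivSqZeroExt.inl + B.map TrivSqZeroExt.inr

theorem epsMat_mul (A B A' B' : 𝕄) :
    epsMat A B * epsMat A' B' = epsMat (A * A') (A * B' + B * A') := by
  ext i j
  all_goals simp [epsMat, Matrix.mul_apply]
  all_goals ring

theorem epsMat_one_zero : epsMat (1 : 𝕄) 0 = 1 := by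
  ext i j <;> simp [epsMat, Matrix.one_apply]

/-- The first order deformation attached to a cocycle. -/
def liftMat (M : MatRep k) (c : GQ → 𝕄) (hc : IsTangentCocycle M c) :
    MatRep (DualNumber k) where
  toFun σ := epsMat (M σ) (c σ * M σ)
  map_one' := by
    have h := hc.map_mul 1 1
    simp [adAct] at h
    simp [h, epsMat_one_zero]
  map_mul' σ τ := by
    rw [epsMat_mul, map_mul, hc.map_mul, adAct, add_mul]
    congr 1
    rw [mul_assoc (M σ * c τ), ← mul_assoc (M σ⁻¹), inv_mul_eq_one, one_mul, add_comm, mul_assoc,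
      ← mul_assoc (c σ)]

theorem liftMat_apply (M : MatRep k) (c : GQ → 𝕄) (hc : IsTangentCocycle M c) (σ : GQ) :
    liftMat M c hc σ = epsMat (M σ) (c σ * M σ) := rfl

/-- `M` is trivial on an open subgroup. -/
def FactorsFinite (M : MatRep k) : Prop :=
  ∃ L : IntermediateField ℚ (AlgebraicClosure ℚ), FiniteDimensional ℚ L ∧
    ∀ σ : GQ, (∀ x ∈ L, σ x = x) → M σ = 1

theorem mcont_liftMat {M : MatRep k} (hM : FactorsFinite M) {c : GQ → 𝕄}
    (hc : IsTangentCocycle M c) : MCont (liftMat M c hc) := fun n => by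
  obtain ⟨L, hL, h1⟩ := hM
  obtain ⟨L', hL', h2⟩ := hc.exists_level
  refine ⟨L ⊔ L', inferInstance, fun σ hσ i j => ?_⟩
  rw [liftMat_apply, h1 σ fun x hx => hσ x ((le_sup_left : L ≤ L ⊔ L') hx),
    h2 σ fun x hx => hσ x ((le_sup_right : L' ≤ L ⊔ L') hx), zero_mul, epsMat_one_zero, sub_self]
  exact Ideal.zero_mem _

/-- The deformation over `k[ε]` attached to a cocycle. -/
def liftRep {M : MatRep k} (hM : FactorsFinite M) {c : GQ → 𝕄} (hc : IsTangentCocycle M c) :
    GaloisRepAdic (DualNumber k) :=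
  toRep (liftMat M c hc) (mcont_liftMat hM hc)

/-- The determinant of `M` is the mod `p` cyclotomic character. -/
def DetCyclotomic (M : MatRep k) (p : ℕ) : Prop :=
  ∀ (σ : GQ) (a : ℕ), (∀ μ : AlgebraicClosure ℚ, μ ^ p = 1 → σ μ = μ ^ a) →
    (M σ).det = (a : k)

/-- All the characteristic polynomials split over `k`. -/
def CharpolySplits (M : MatRep k) : Prop :=
  ∀ σ : GQ, ∃ α β : k, (M σ).trace = α + β ∧ (M σ).det = α * β

/-- A bound `S` on the restrictions to `D` of the tangent cocycles satisfying `cond`: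
`S` has dimension `≤ d`, and contains the restrictions of those cocycles and of the coboundaries. -/
def LocalTangentBound (M : MatRep k) (D : Subgroup GQ) (cond : (GQ → 𝕄) → Prop) (d : ℕ) : Prop :=
  ∃ S : Submodule k (D → 𝕄), Module.Finite k S ∧ Module.finrank k S ≤ d ∧
    (∀ X : 𝕄, X.trace = 0 → restrictTo D (coboundary M X) ∈ S) ∧
    ∀ c : GQ → 𝕄, IsTangentCocycle M c → cond c → restrictTo D c ∈ S

end FLTAgent.TW
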