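import Fermat.Agent.TW.Defs

/-!
# Auxiliary primes and the tangent bound

The definitions `BigImage`, `IsAuxPrime` and `TangentBound`. `exists_twPrimes` (in
`TW/Global/Count.lean`) is the global Euler characteristic formula with the dual classes killed:
for local bounds `d l` on the restrictions of cocycles (coboundaries included, so that
`d l - 3 = dim L_l - h⁰_l`), the traces of first order deformations satisfying them are
determined by `g` test elements as soon as `r + ∑ d ≤ g + 3 · #S + 1`.
-/

set_option autoImplicit false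

noncomputable section

namespace FLTAgent.TW

open Matrix FLTAgent.Deform

variable {k : Type} [Field k]

local notation "𝕄" => Matrix (Fin 2) (Fin 2) k

/-- No line is stable under an open subgroup of index two, even after extending the scalars. -/
def BigImage (M : MatRep k) : Prop :=
  ∀ (K : Type) [Field K] [Algebra k K] (H : Subgroup GQ), H.index = 2 →
    ∀ V : Submodule K (Fin 2 → K),
      (∀ σ ∈ H, ∀ x ∈ V, (M σ).map (algebraMap k K) *ᵥ x ∈ V) → V = ⊥ ∨ V = ⊤

/-- An auxiliary prime of depth `n`. -/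
structure IsAuxPrime (M : MatRep k) (p n q : ℕ) : Prop where
  prime : q.Prime
  dvd : p ^ (n + 1) ∣ q - 1
  distinct : ∀ A : ValuationSubring (AlgebraicClosure ℚ), A.LiesOverPrime q → ∀ φ : GQ,
    A.IsFrobeniusAt φ q → ∃ α β : k, α ≠ β ∧ (M φ).trace = α + β ∧ (M φ).det = α * β

/-- The bound on the first order deformations allowed to ramify at `Q`, with prescribed subspaces
`W l` of restrictions at one place above every `l ∈ S`. -/
def TangentBound (M : MatRep k) (S : Finset ℕ) (Q : Finset ℕ) (r : ℕ) : Prop :=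
  ∀ A : ℕ → ValuationSubring (AlgebraicClosure ℚ), (∀ l ∈ S, (A l).LiesOverPrime l) →
    ∀ (W : ∀ l : ℕ, Submodule k (((A l).decompositionSubgroup ℚ) → 𝕄)) (d : ℕ → ℕ),
      (∀ l ∈ S, Module.Finite k (W l) ∧ Module.finrank k (W l) ≤ d l ∧
        ∀ X : 𝕄, X.trace = 0 →
          restrictTo ((A l).decompositionSubgroup ℚ) (coboundary M X) ∈ W l) →
      3 * S.card + 1 ≤ r + ∑ l ∈ S, d l ∧
      ∀ g : ℕ, r + ∑ l ∈ S, d l ≤ g + (3 * S.card + 1) →
        ∃ σ : Fin g → GQ, ∀ c : GQ → 𝕄, IsTangentCocycle M c →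
          (∀ q : ℕ, q.Prime → q ∉ S → q ∉ Q →
            ∀ P : ValuationSubring (AlgebraicClosure ℚ), P.LiesOverPrime q →
              ∀ τ ∈ P.inertiaSubgroupIn ℚ, c τ = 0) →
          (∀ l ∈ S, restrictTo ((A l).decompositionSubgroup ℚ) c ∈ W l) →
          (∀ j, (c (σ j) * M (σ j)).trace = 0) → ∀ τ : GQ, (c τ * M τ).trace = 0

/-- Coboundaries vanish on a subgroup where the representation is scalar. -/
theorem coboundary_eq_zero_of_scalar (M : MatRep k) {D : Subgroup GQ}
    (hD : ∀ τ ∈ D, ∃ c : k, M τ = c • 1) (X : 𝕄) :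
    restrictTo D (coboundary M X) = 0 := funext fun τ => by
  obtain ⟨c, hc⟩ := hD τ τ.2
  show M τ * X * M (τ : GQ)⁻¹ - X = 0
  rw [sub_eq_zero, hc, Matrix.smul_mul, one_mul]
  conv_rhs => rw [← mul_one X, ← mul_inv_eq_one M τ, hc, Matrix.smul_mul, one_mul, Matrix.mul_smul]
  rw [Matrix.smul_mul]

end FLTAgent.TW
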