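import Fermat.Agent.TW.DualRep
import Fermat.Agent.TW.Tangent
import Fermat.Prelude.Def_GaloisRep_StrictOrdinary
import Fermat.Prelude.Def_GaloisRep_Flat
import Fermat.Agent.GalCommon.Burnside
import Fermat.Agent.GalCommon.Dickson

/-!
# Transport of the hypotheses between representations and matrices

Local conditions pass along isomorphisms of representations, a lift to `k[ε]` is isomorphic to
the representation of its cocycle (`isEquiv_liftRep`), and the hypotheses on a residual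
representation give those on its matrices `barMat` (`span_barMat_eq_top`, `bigImage_barMat`,
`charpolySplits_barMat`).
-/

set_option autoImplicit false
set_option linter.style.haveILetI false

noncomputable section

namespace FLTAgent.TW

open Matrix IsLocalRing FLTAgent.Deform
open scoped TensorProduct DualNumber

theorem isStrictOrdinaryAt_of_isEquiv {A : Type} [CommRing A] [IsLocalRing A] {p : ℕ}
    {ρ₁ ρ₂ : GaloisRepAdic A} (h : ρ₁.IsEquiv ρ₂) (h₁ : ρ₁.IsStrictOrdinaryAt p) :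
    ρ₂.IsStrictOrdinaryAt p := by
  obtain ⟨e⟩ := h
  refine ⟨h₁.1, fun P hP => ?_⟩
  obtain ⟨L, ⟨b, hb⟩, hD, hI, hx⟩ := h₁.2 P hP
  have hmem : ∀ {v : ρ₂.V}, v ∈ L.map (e.toLinearEquiv : ρ₁.V →ₗ[A] ρ₂.V) ↔
      e.toLinearEquiv.symm v ∈ L := fun {v} => by
    rw [Submodule.map_equiv_eq_comap_symm]; rfl
  have hσ : ∀ σ v, e.toLinearEquiv.symm (ρ₂.ρ σ v) = ρ₁.ρ σ (e.toLinearEquiv.symm v) := fun σ v => by
    rw [LinearEquiv.symm_apply_eq, e.map_apply, LinearEquiv.apply_symm_apply]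
  refine ⟨L.map (e.toLinearEquiv : ρ₁.V →ₗ[A] ρ₂.V), ⟨b.map e.toLinearEquiv, ?_⟩,
    fun σ hσD v hv => ?_, fun σ hσI v => ?_, fun σ hσD => ?_⟩
  · rw [hb, Submodule.map_span, Set.image_singleton]; rfl
  · rw [hmem, hσ]; exact hD σ hσD _ (hmem.mp hv)
  · rw [hmem, map_sub, hσ]; exact hI σ hσI _
  · obtain ⟨x, z, h1, h2, h3⟩ := hx σ hσD
    refine ⟨x, z, fun w hw => ?_, fun v => ?_, h3⟩
    · apply e.toLinearEquiv.symm.injective
      rw [hσ, map_smul]; exact h1 _ (hmem.mp hw)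
    · rw [hmem, map_sub, hσ, map_smul]; exact h2 _

theorem isFlatAt_of_isEquiv {A : Type} [CommRing A] [IsLocalRing A] {p : ℕ}
    {ρ₁ ρ₂ : GaloisRepAdic A} (h : ρ₁.IsEquiv ρ₂) (h₁ : ρ₁.IsFlatAt p) : ρ₂.IsFlatAt p := by
  obtain ⟨e⟩ := h
  refine ⟨h₁.1, fun I hI => ?_⟩
  obtain ⟨H, i1, i2, f1, f2, f3, θ, hmul, hgal⟩ := h₁.2 I hI
  have hmap : (I • (⊤ : Submodule A ρ₁.V)).map (e.toLinearEquiv : ρ₁.V →ₗ[A] ρ₂.V) =
      I • (⊤ : Submodule A ρ₂.V) := by
    rw [Submodule.map_smul'', Submodule.map_top, LinearEquiv.range]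
  let e' := Submodule.Quotient.equiv _ _ e.toLinearEquiv hmap
  refine ⟨H, i1, i2, f1, f2, f3, θ.trans e'.toEquiv, fun f g => ?_, fun σ f g hfg => ?_⟩
  · show e' (θ (f * g)) = e' (θ f) + e' (θ g)
    rw [hmul, map_add]
  · show e' (θ g) = ρ₂.levelAction I σ (e' (θ f))
    rw [hgal σ f g hfg]
    obtain ⟨v, hv⟩ := Submodule.Quotient.mk_surjective _ (θ f)
    rw [← hv]
    exact congrArg (Submodule.Quotient.mk (p := I • (⊤ : Submodule A ρ₂.V))) (e.map_apply σ v)

theorem isEquiv_liftRep {k : Type} [Field k] {M : MatRep k} (hM : FactorsFinite M)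
    {c : GQ → Matrix (Fin 2) (Fin 2) k} (hc : IsTangentCocycle M c)
    (ρ : GaloisRepAdic (DualNumber k)) (b : Module.Basis (Fin 2) (DualNumber k) ρ.V)
    (h : ∀ σ, matOf ρ b σ = epsMat (M σ) (c σ * M σ)) : ρ.IsEquiv (liftRep hM hc) :=
  isEquiv_toRep_matOf ρ b _ _ (MonoidHom.ext fun σ => (h σ).trans (liftMat_apply M c hc σ).symm)

theorem trace_snd_of_matOf {k : Type} [Field k] {M : MatRep k}
    {c : GQ → Matrix (Fin 2) (Fin 2) k} (ρ : GaloisRepAdic (DualNumber k))
    (b : Module.Basis (Fin 2) (DualNumber k) ρ.V)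
    (h : ∀ σ, matOf ρ b σ = epsMat (M σ) (c σ * M σ)) (σ : GQ) :
    TrivSqZeroExt.snd (ρ.trace σ) = (c σ * M σ).trace := by
  rw [trace_eq_trace_matOf ρ b, h, snd_trace_epsMat]

variable {k : Type} [Field k] (ρbar : ResidualGaloisRep k)
  (b₀ : Module.Basis (Fin 2) k ρbar.V)

theorem span_barMat_eq_top (habs : ρbar.IsAbsolutelyIrreducible) :
    Submodule.span k (Set.range (barMat ρbar b₀)) = ⊤ := by
  have h := congrArg (Submodule.map (LinearMap.toMatrix b₀ b₀).toLinearMap)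
    (GalCommon.span_range_eq_top_residual ρbar habs)
  rw [Submodule.map_span, Submodule.map_top, LinearEquiv.range, ← Set.range_comp] at h
  exact h

theorem bigImage_barMat
    (hbig : ∀ (K : Type) [Field K] [Algebra k K] (H : Subgroup GQ), H.index = 2 →
      ∀ V : Submodule K (ρbar.baseChange K).V,
        (∀ σ ∈ H, ∀ x ∈ V, (ρbar.baseChange K).ρ σ x ∈ V) → V = ⊥ ∨ V = ⊤) :
    BigImage (barMat ρbar b₀) := fun K _ _ H hH V hV => by
  let bK : Module.Basis (Fin 2) K (ρbar.baseChange K).V := Algebra.TensorProduct.basis K b₀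
  have key : ∀ σ x, bK.equivFun ((ρbar.baseChange K).ρ σ x) =
      (barMat ρbar b₀ σ).map (algebraMap k K) *ᵥ bK.equivFun x := fun σ x => by
    rw [barMat_apply, ← LinearMap.toMatrix_baseChange K (ρbar.ρ σ) b₀ b₀]
    simp only [Module.Basis.equivFun_apply]
    exact (LinearMap.toMatrix_mulVec_repr bK bK _ x).symm
  have h := hbig K H hH (V.comap (bK.equivFun : _ →ₗ[K] (Fin 2 → K))) fun σ hσ x hx => by
    rw [Submodule.mem_comap] at hx ⊢
    show bK.equivFun _ ∈ V
    rw [key]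
    exact hV σ hσ _ hx
  rcases h with h | h
  · left
    rw [← Submodule.map_comap_eq_of_surjective bK.equivFun.surjective V]
    exact (congrArg (Submodule.map _) h).trans (Submodule.map_bot _)
  · right
    rw [← Submodule.map_comap_eq_of_surjective bK.equivFun.surjective V]
    refine (congrArg (Submodule.map _) h).trans ?_
    rw [Submodule.map_top]
    exact LinearMap.range_eq_top.mpr bK.equivFun.surjective

theorem charpolySplits_barMat
    (h : ∀ σ : GQ, ∃ α β : k, LinearMap.charpoly (ρbar.ρ σ) =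
      (Polynomial.X - Polynomial.C α) * (Polynomial.X - Polynomial.C β)) :
    CharpolySplits (barMat ρbar b₀) := fun σ => by
  obtain ⟨α, β, hαβ⟩ := h σ
  have := GalCommon.trace_det_of_charpoly_eq (A := k) ρbar.finrank_eq (f := ρbar.ρ σ)
    (t := α + β) (d := α * β) (by rw [hαβ, map_add, map_mul]; ring)
  exact ⟨α, β, by rw [barMat_apply, ← LinearMap.trace_eq_matrix_trace]; exact this.1,
    by rw [barMat_apply, LinearMap.det_toMatrix]; exact this.2⟩

theorem distinct_charpoly_of_isAuxPrime {p n q : ℕ} (h : IsAuxPrime (barMat ρbar b₀) p n q)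
    (A : ValuationSubring (AlgebraicClosure ℚ)) (hA : A.LiesOverPrime q) (φ : GQ)
    (hφ : A.IsFrobeniusAt φ q) :
    ∃ α β : k, α ≠ β ∧ LinearMap.charpoly (ρbar.ρ φ) =
      (Polynomial.X - Polynomial.C α) * (Polynomial.X - Polynomial.C β) := by
  obtain ⟨α, β, hne, ht, hd⟩ := h.distinct A hA φ hφ
  refine ⟨α, β, hne, ?_⟩
  rw [← LinearMap.charpoly_toMatrix (ρbar.ρ φ) b₀, Matrix.charpoly_fin_two, ← barMat_apply, ht, hd,
    map_add, map_mul]
  ring

/-- The cocycle of a lift vanishes where the lift is trivial. -/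
theorem cocycle_eq_zero_of_apply_eq_one {M : MatRep k} {c : GQ → Matrix (Fin 2) (Fin 2) k}
    (ρ : GaloisRepAdic (DualNumber k)) (b : Module.Basis (Fin 2) (DualNumber k) ρ.V)
    (h : ∀ σ, matOf ρ b σ = epsMat (M σ) (c σ * M σ)) {τ : GQ} (hτ : ρ.ρ τ = 1) : c τ = 0 := by
  have h1 := h τ
  rw [matOf_apply, hτ, LinearMap.toMatrix_one, ← epsMat_one_zero (k := k)] at h1
  obtain ⟨hA, hB⟩ := epsMat_inj h1
  rw [← hA, mul_one] at hB
  exact hB.symm

theorem cocycle_eq_zero_of_apply_scalar {M : MatRep k} {c : GQ → Matrix (Fin 2) (Fin 2) k}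
    (ρ : GaloisRepAdic (DualNumber k))
    (b : Module.Basis (Fin 2) (DualNumber k) ρ.V)
    (h : ∀ σ, matOf ρ b σ = epsMat (M σ) (c σ * M σ)) {τ : GQ} {a : k}
    (hτ : ρ.ρ τ = algebraMap k (DualNumber k) a • 1) : c τ = 0 := by
  have h1 := h τ
  rw [matOf_apply, hτ, map_smul, LinearMap.toMatrix_one] at h1
  have e : (algebraMap k (DualNumber k) a • (1 : Matrix (Fin 2) (Fin 2) (DualNumber k))) =
      epsMat (a • (1 : Matrix (Fin 2) (Fin 2) k)) 0 := by
    ext i j <;> rcases eq_or_ne i j with rfl | hne <;>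
      simp [epsMat, TrivSqZeroExt.algebraMap_eq_inl, *]
  rw [e] at h1
  obtain ⟨hA, hB⟩ := epsMat_inj h1
  have := congrArg (· * M τ⁻¹) hB.symm
  simpa [mul_assoc, mul_inv_eq_one] using this

/-- Unipotent lifts have cocycles killed by the trace pairing on inertia. -/
theorem trace_eq_zero_of_charpoly {M : MatRep k} {c : GQ → Matrix (Fin 2) (Fin 2) k}
    (ρ : GaloisRepAdic (DualNumber k)) (b : Module.Basis (Fin 2) (DualNumber k) ρ.V)
    (h : ∀ σ, matOf ρ b σ = epsMat (M σ) (c σ * M σ)) {τ : GQ}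
    (hτ : LinearMap.charpoly (ρ.ρ τ) = (Polynomial.X - 1) ^ 2) : (c τ * M τ).trace = 0 := by
  have h1 := (GalCommon.trace_det_of_charpoly_eq (A := DualNumber k) ρ.finrank_eq (f := ρ.ρ τ)
    (t := 2) (d := 1) (by rw [hτ, map_one, map_ofNat]; ring)).1
  rw [← trace_snd_of_matOf ρ b h τ, GaloisRepAdic.trace, h1]
  exact TrivSqZeroExt.snd_natCast 2

end FLTAgent.TW
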