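import Fermat.Agent.TW.DualRep
import Fermat.Agent.LocP.Normalised

/-!
# Places where a first order deformation is constant

Such a deformation has a coboundary as cocycle, and at an unramified place the coboundaries have
dimension at most `3 - h⁰(ad⁰)` (`exists_coboundary_of_constant`,
`finrank_coboundaryRange_add_one_le`).
-/

set_option autoImplicit false
set_option linter.unusedSectionVars false
set_option linter.style.haveILetI false

noncomputable section

namespace FLTAgent.TW

open Matrix FLTAgent.Deform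
open scoped DualNumber Pointwise

variable {k : Type} [Field k]

local notation "𝕄" => Matrix (Fin 2) (Fin 2) k

theorem coboundary_sub_scalar (M : MatRep k) (X : 𝕄) (a : k) :
    coboundary M (X - a • 1) = coboundary M X := by
  funext σ
  show M σ * (X - a • 1) * M σ⁻¹ - (X - a • 1) = M σ * X * M σ⁻¹ - X
  rw [mul_sub, sub_mul, Matrix.mul_smul, mul_one, Matrix.smul_mul, mul_inv_eq_one]
  abel

/-- A deformation which is constant in some basis on a subgroup has a coboundary there. -/
theorem exists_coboundary_of_constant (h2 : (2 : k) ≠ 0) {M : MatRep k} {c : GQ → 𝕄}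
    (ρ : GaloisRepAdic (DualNumber k)) (b : Module.Basis (Fin 2) (DualNumber k) ρ.V)
    (h : ∀ σ, matOf ρ b σ = epsMat (M σ) (c σ * M σ)) (D : Subgroup GQ)
    (b' : Module.Basis (Fin 2) (DualNumber k) ρ.V)
    (hb' : ∀ τ ∈ D, ∀ i j, TrivSqZeroExt.snd (LinearMap.toMatrix b' b' (ρ.ρ τ) i j) = 0) :
    ∃ X : 𝕄, X.trace = 0 ∧ restrictTo D c = restrictTo D (coboundary M X) := by
  set G := b'.toMatrix b with hG
  set G' := b.toMatrix b' with hG'
  have hGG' : G' * G = 1 := Module.Basis.toMatrix_mul_toMatrix_flip b b'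
  set G₀ := G.map TrivSqZeroExt.fst
  set G₁ := G.map TrivSqZeroExt.snd
  set H₀ := G'.map TrivSqZeroExt.fst
  have hH : H₀ * G₀ = 1 := by
    have h1 := hGG'
    rw [← epsMat_fst_snd G', ← epsMat_fst_snd G, epsMat_mul, ← epsMat_one_zero (k := k)] at h1
    exact (epsMat_inj h1).1
  set Y := H₀ * G₁ with hY
  refine ⟨Y - (Y.trace / 2) • 1, ?_, funext fun τ => ?_⟩
  · rw [Matrix.trace_sub, Matrix.trace_smul, Matrix.trace_one, Fintype.card_fin, smul_eq_mul]
    push_cast
    field_simp
    ring
  obtain ⟨τ, hτ⟩ := τ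
  show c τ = coboundary M (Y - (Y.trace / 2) • 1) τ
  rw [coboundary_sub_scalar]
  set N := LinearMap.toMatrix b' b' (ρ.ρ τ) with hN
  have hN0 : N = epsMat (N.map TrivSqZeroExt.fst) 0 := by
    conv_lhs => rw [← epsMat_fst_snd N]
    congr 1
    exact Matrix.ext fun i j => hb' τ hτ i j
  have h1 : N * G = G * matOf ρ b τ := by
    rw [hN, hG, matOf_apply, linearMap_toMatrix_mul_basis_toMatrix,
      basis_toMatrix_mul_linearMap_toMatrix]
  rw [hN0, h τ, ← epsMat_fst_snd G, epsMat_mul, epsMat_mul, zero_mul, add_zero] at h1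
  obtain ⟨e0, e1⟩ := epsMat_inj h1
  change N.map TrivSqZeroExt.fst * G₀ = G₀ * M τ at e0
  change N.map TrivSqZeroExt.fst * G₁ = G₀ * (c τ * M τ) + G₁ * M τ at e1
  have hG0 : G₀ * H₀ = 1 := mul_eq_one_comm.mp hH
  have e2 : c τ * M τ = M τ * Y - Y * M τ := by
    have h2 := congrArg (H₀ * ·) e1
    rw [← mul_one (N.map TrivSqZeroExt.fst), ← hG0, ← mul_assoc (N.map TrivSqZeroExt.fst), e0]
      at h2
    simp only [mul_add, ← mul_assoc, hH, one_mul] at h2
    rw [eq_sub_iff_add_eq, hY, ← mul_assoc]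
    exact h2.symm
  show c τ = M τ * Y * M τ⁻¹ - Y
  have h3 := congrArg (· * M τ⁻¹) e2
  simp only [sub_mul, mul_assoc, mul_inv_eq_one, mul_one] at h3
  rw [mul_assoc]
  exact h3

/-- A nonscalar commutative image has a nonzero invariant in `ad⁰`. -/
theorem finrank_coboundaryRange_add_one_le [Finite k] (h2 : (2 : k) ≠ 0) {M : MatRep k}
    {D : Subgroup GQ} (hcomm : ∀ σ ∈ D, ∀ τ ∈ D, M σ * M τ = M τ * M σ) {τ : GQ} (hτ : τ ∈ D)
    (hns : ∀ a : k, M τ ≠ a • 1) :
    Module.finrank k (LocP.coboundaryRange M D) + 1 ≤ 3 := by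
  set K := LinearMap.ker (Matrix.traceLinearMap (Fin 2) k k)
  set f := ((restrictTo D).comp (coboundary M)).comp K.subtype with hf
  have hrange : LocP.coboundaryRange M D = LinearMap.range f := by
    rw [hf, LinearMap.range_comp, Submodule.range_subtype]
    rfl
  set X := M τ - ((M τ).trace / 2) • (1 : 𝕄) with hX
  have hXK : X ∈ K := by
    rw [LinearMap.mem_ker, Matrix.traceLinearMap_apply, hX, Matrix.trace_sub, Matrix.trace_smul,
      Matrix.trace_one, Fintype.card_fin, smul_eq_mul]
    push_cast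
    field_simp
    ring
  have hXker : (⟨X, hXK⟩ : K) ∈ LinearMap.ker f := by
    refine LinearMap.mem_ker.mpr (funext fun σ => ?_)
    show coboundary M X σ = 0
    rw [hX, coboundary_sub_scalar]
    show M σ * M τ * M (σ : GQ)⁻¹ - M τ = 0
    rw [hcomm σ σ.2 τ hτ, mul_assoc, mul_inv_eq_one, mul_one, sub_self]
  have hne : LinearMap.ker f ≠ ⊥ := fun h => by
    rw [h, Submodule.mem_bot, Subtype.ext_iff] at hXker
    exact hns _ (sub_eq_zero.mp hXker)
  have h1 := LinearMap.finrank_range_add_finrank_ker f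
  have h3 : 1 ≤ Module.finrank k (LinearMap.ker f) := Submodule.one_le_finrank_iff.mpr hne
  have h4 : Module.finrank k K ≤ 3 := by
    have h5 : Module.finrank k K < Module.finrank k 𝕄 := Submodule.finrank_lt fun h => by
      have h6 : (1 : 𝕄) ∈ K := h ▸ Submodule.mem_top
      rw [LinearMap.mem_ker, Matrix.traceLinearMap_apply, Matrix.trace_one, Fintype.card_fin] at h6
      exact h2 (by exact_mod_cast h6)
    rw [Module.finrank_matrix, Module.finrank_self, Fintype.card_fin] at h5
    omega
  rw [hrange]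
  omega

end FLTAgent.TW
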