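import Fermat.Agent.TW.Defs
import Fermat.Agent.LocP.Ordinary
import Fermat.Agent.LocP.FlatIrreducible
import Fermat.Agent.LocP.FlatOrdinary

/-!
# The local tangent bounds at `p` used for Taylor–Wiles primes

The bounds of `LocP` in the form taken by the count: `4` for strictly ordinary and for flat
deformations, `3` for both conditions at once. `finrank S ≤ 4` is the classical
`dim L_p ≤ h⁰(ad⁰) + 1`, since the coboundaries have dimension `3 - h⁰(ad⁰)`.
-/

set_option autoImplicit false

noncomputable section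

namespace FLTAgent.TW

open FLTAgent.Deform

variable {k : Type} [Field k] [Finite k]

/-- Strictly ordinary: `dim ≤ h⁰(ad⁰) + 1`. -/
theorem localTangentBound_strictOrdinary {p : ℕ} [Fact p.Prime] [CharP k p] (hp2 : p ≠ 2)
    (M : MatRep k) (hM : FactorsFinite M) (hdet : DetCyclotomic M p) (hsplit : CharpolySplits M)
    (P : ValuationSubring (AlgebraicClosure ℚ)) (hP : P.LiesOverPrime p) :
    LocalTangentBound M (P.decompositionSubgroup ℚ)
      (fun c => ∀ hc : IsTangentCocycle M c, (liftRep hM hc).IsStrictOrdinaryAt p) 4 :=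
  LocP.tangentBound_strictOrdinary hp2 M hM hdet hP

/-- Flat: `dim ≤ h⁰(ad⁰) + 1`. -/
theorem localTangentBound_flat {p : ℕ} [Fact p.Prime] [CharP k p] (hp2 : p ≠ 2)
    (M : MatRep k) (hM : FactorsFinite M) (hdet : DetCyclotomic M p) (hsplit : CharpolySplits M)
    (P : ValuationSubring (AlgebraicClosure ℚ)) (hP : P.LiesOverPrime p) :
    LocalTangentBound M (P.decompositionSubgroup ℚ)
      (fun c => ∀ hc : IsTangentCocycle M c, (liftRep hM hc).IsFlatAt p) 4 :=
  LocP.tangentBound_flat hp2 M hM hdet hsplit hP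

/-- Flat and strictly ordinary: `dim ≤ h⁰(ad⁰)`. -/
theorem localTangentBound_flat_strictOrdinary {p : ℕ} [Fact p.Prime] [CharP k p] (hp2 : p ≠ 2)
    (M : MatRep k) (hM : FactorsFinite M) (hdet : DetCyclotomic M p)
    (P : ValuationSubring (AlgebraicClosure ℚ)) (hP : P.LiesOverPrime p) :
    LocalTangentBound M (P.decompositionSubgroup ℚ)
      (fun c => ∀ hc : IsTangentCocycle M c,
        (liftRep hM hc).IsFlatAt p ∧ (liftRep hM hc).IsStrictOrdinaryAt p) 3 :=
  LocP.tangentBound_flat_strictOrdinary hp2 M hM hdet hP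

end FLTAgent.TW
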