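import Fermat.Agent.TW.DualRep
import Fermat.Agent.Lower.Iface.TamePair

/-!
# The tangent bound at a prime with nontrivial unipotent inertia

`localTangentBound_unipotent`: cocycles killed by the trace pairing on inertia restrict to a
space of dimension at most `3`. After a change of basis putting a tame generator in standard
form, three coordinates determine a cocycle on it and on Frobenius (`eq_zero_of_coords`).
-/

set_option autoImplicit false
set_option linter.style.haveILetI false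

noncomputable section

namespace FLTAgent.TW

open Matrix FLTAgent.Deform
open scoped DualNumber

variable {k : Type} [Field k]

local notation "𝕄" => Matrix (Fin 2) (Fin 2) k

theorem epsMat_pow_upper {X : 𝕄} {a s : k} (hX : X = !![a, s; 0, -a]) (m : ℕ) :
    ∃ t : k, (a = 0 → s = 0 → t = 0) ∧
      epsMat (!![1, 1; 0, 1] : 𝕄) (X * !![1, 1; 0, 1]) ^ m =
        epsMat !![1, (m : k); 0, 1] !![(m : k) * a, t; 0, -((m : k) * a)] := by
  induction m with
  | zero =>
    refine ⟨0, fun _ _ => rfl, ?_⟩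
    rw [pow_zero, ← epsMat_one_zero (k := k)]
    congr 1 <;> ext i j <;> fin_cases i <;> fin_cases j <;> simp
  | succ m ih =>
    obtain ⟨t, ht, e⟩ := ih
    refine ⟨(a + s) - (m : k) * a + (m : k) * a + t, fun ha hs => by rw [ht ha hs, ha, hs]; simp, ?_⟩
    rw [pow_succ, e, epsMat_mul, hX]
    congr 1 <;> ext i j <;> fin_cases i <;> fin_cases j <;> simp <;> ring

/-- The linear algebra: three coordinates determine a first order deformation on the generators. -/
theorem eq_zero_of_coords {X Y F : 𝕄} {l : ℕ} (hl : (l : k) ≠ 0) (h2 : (2 : k) ≠ 0)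
    (hX : X.trace = 0) (hY : Y.trace = 0) (hXU : (X * !![1, 1; 0, 1]).trace = 0)
    (hF : F.det ≠ 0) (hFU : F * !![1, 1; 0, 1] = !![1, (l : k); 0, 1] * F)
    (hrel : epsMat F (Y * F) * epsMat !![1, 1; 0, 1] (X * !![1, 1; 0, 1]) =
      epsMat (!![1, 1; 0, 1] : 𝕄) (X * !![1, 1; 0, 1]) ^ l * epsMat F (Y * F))
    (hy : Y 0 1 = 0) (hb : X 0 1 = 0)
    (hw : ((l : k) = 1 → X 0 0 = 0) ∧ ((l : k) ≠ 1 → Y 1 0 = 0)) :
    X = 0 ∧ Y = 0 := by
  have hX11 : X 1 1 = -X 0 0 := by
    rw [Matrix.trace_fin_two] at hX; linear_combination hX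
  have hY11 : Y 1 1 = -Y 0 0 := by
    rw [Matrix.trace_fin_two] at hY; linear_combination hY
  have hX10 : X 1 0 = 0 := by
    rw [Matrix.trace_fin_two] at hXU
    simp [Matrix.mul_apply, Fin.sum_univ_two] at hXU
    linear_combination hXU - hX11
  have hXe : X = !![X 0 0, 0; 0, -X 0 0] := by
    ext i j; fin_cases i <;> fin_cases j <;> simp [hX10, hX11, hb]
  have hFU' : ∀ i j : Fin 2, (F * !![1, 1; 0, 1] : 𝕄) i j = (!![1, (l : k); 0, 1] * F : 𝕄) i j := fun i j => by
    rw [hFU]
  have hF10 : F 1 0 = 0 := by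
    have := hFU' 0 0
    simp [Matrix.mul_apply, Fin.sum_univ_two] at this
    exact this.resolve_left hl
  have hF00 : F 0 0 = (l : k) * F 1 1 := by
    have := hFU' 0 1
    simp [Matrix.mul_apply, Fin.sum_univ_two] at this
    linear_combination this
  have hF11 : F 1 1 ≠ 0 := fun h => hF (by rw [Matrix.det_fin_two, hF10, h]; ring)
  have hF00' : F 0 0 ≠ 0 := hF00 ▸ mul_ne_zero hl hF11
  obtain ⟨t, ht, e⟩ := epsMat_pow_upper hXe l
  rw [e, epsMat_mul, epsMat_mul] at hrel
  have h := (epsMat_inj hrel).2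
  have e00 := congrFun (congrFun h 0) 0
  have e01 := congrFun (congrFun h 0) 1
  simp [Matrix.mul_apply, Matrix.vecMul, dotProduct, Fin.sum_univ_two, hX10, hX11, hY11, hF10, hb, hy] at e00 e01
  have ha : X 0 0 = (l : k) * Y 1 0 + (l : k) * X 0 0 := by
    refine mul_left_cancel₀ hF00' ?_
    linear_combination e00
  have hz : X 0 0 = 0 ∧ Y 1 0 = 0 := by
    by_cases h1 : (l : k) = 1
    · have h0 := hw.1 h1
      rw [h0, h1] at ha
      exact ⟨h0, by linear_combination -ha⟩
    · have h0 := hw.2 h1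
      rw [h0, mul_zero, zero_add] at ha
      refine ⟨by_contra fun hne => h1 (mul_right_cancel₀ hne ?_), h0⟩
      rw [one_mul]; exact ha.symm
  have ht0 : t = 0 := ht hz.1 rfl
  simp [hz.1, hz.2, ht0, hF00] at e01
  have hx : Y 0 0 = 0 := by
    have h3 : (2 * (l : k) * F 1 1) * Y 0 0 = 0 := by linear_combination e01
    exact (mul_eq_zero.mp h3).resolve_left (mul_ne_zero (mul_ne_zero h2 hl) hF11)
  refine ⟨?_, ?_⟩
  · rw [hXe, hz.1]; ext i j; fin_cases i <;> fin_cases j <;> simp
  · ext i j; fin_cases i <;> fin_cases j <;> simp [hy, hz.2, hx, hY11]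

/-- A change of basis putting a nontrivial unipotent matrix in standard form. -/
theorem exists_unipotent_basis {A : 𝕄} (h2 : (A - 1) * (A - 1) = 0) (h1 : A ≠ 1) :
    ∃ P : 𝕄ˣ, (↑P⁻¹ : 𝕄) * A * (P : 𝕄) = !![1, 1; 0, 1] := by
  set N := A - 1 with hN
  have hN0 : N ≠ 0 := sub_ne_zero.mpr h1
  obtain ⟨j, hj⟩ : ∃ j : Fin 2, N *ᵥ Pi.single j 1 ≠ 0 := by
    by_contra hall
    push Not at hall
    refine hN0 (Matrix.ext fun i j => ?_)
    have := congrFun (hall j) i
    rwa [Matrix.mulVec_single_one] at this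
  set v : Fin 2 → k := Pi.single j 1
  set u := N *ᵥ v with hu
  have hNu : N *ᵥ u = 0 := by rw [hu, Matrix.mulVec_mulVec, h2, Matrix.zero_mulVec]
  let P : 𝕄 := Matrix.of fun i c => if c = 0 then u i else v i
  have hdet : IsUnit P.det := by
    rw [isUnit_iff_ne_zero]
    intro h0
    obtain ⟨w, hw, hw0⟩ := Matrix.exists_mulVec_eq_zero_iff.mpr h0
    have e : ∀ i, u i * w 0 + v i * w 1 = 0 := fun i => by
      have := congrFun hw0 i
      simpa [P, Matrix.mulVec, dotProduct, Fin.sum_univ_two] using this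
    have e' : w 0 • u + w 1 • v = 0 := funext fun i => by
      simp only [Pi.add_apply, Pi.smul_apply, smul_eq_mul, Pi.zero_apply]
      linear_combination e i
    have e'' := congrArg (N *ᵥ ·) e'
    simp only [Matrix.mulVec_add, Matrix.mulVec_smul, hNu, smul_zero, zero_add,
      Matrix.mulVec_zero] at e''
    have hw1 : w 1 = 0 := (smul_eq_zero.mp e'').resolve_right hj
    rw [hw1, zero_smul, add_zero] at e'
    have hw0' : w 0 = 0 := (smul_eq_zero.mp e').resolve_right hj
    exact hw (funext fun i => by fin_cases i <;> simp [hw0', hw1])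
  obtain ⟨Pu, hPu⟩ := (Matrix.isUnit_iff_isUnit_det P).mpr hdet
  refine ⟨Pu, ?_⟩
  rw [mul_assoc, Units.inv_mul_eq_iff_eq_mul, hPu]
  have hA : A = 1 + N := by rw [hN]; abel
  ext i c
  rw [hA, add_mul, one_mul, Matrix.add_apply]
  have hcol : ∀ c, (N * P) i c = (N *ᵥ fun i => P i c) i := fun c => rfl
  rw [hcol]
  fin_cases c
  · simp [P, hNu, Matrix.mul_apply, Fin.sum_univ_two]
  · simp [P, hu, Matrix.mul_apply, Fin.sum_univ_two, add_comm]

theorem trace_conj (P : 𝕄ˣ) (X : 𝕄) : ((↑P⁻¹ : 𝕄) * X * (P : 𝕄)).trace = X.trace := by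
  rw [Matrix.trace_mul_comm, ← mul_assoc, Units.mul_inv, one_mul]

theorem epsMat_eq_one {A B : 𝕄} (hA : A = 1) (hB : B = 0) : epsMat A B = 1 := by
  rw [hA, hB, epsMat_one_zero]

variable [Finite k]

/-- The local bound `3` at a prime with unipotent, nontrivial inertia. -/
theorem localTangentBound_unipotent {p l : ℕ} [Fact p.Prime] [CharP k p] (hp2 : p ≠ 2)
    (hl : l.Prime) (hlp : l ≠ p) (M : MatRep k) (hM : FactorsFinite M)
    (A : ValuationSubring (AlgebraicClosure ℚ)) (hA : A.LiesOverPrime l)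
    (huni : ∀ τ ∈ A.inertiaSubgroupIn ℚ, (M τ - 1) * (M τ - 1) = 0)
    (hram : ∃ τ ∈ A.inertiaSubgroupIn ℚ, M τ ≠ 1) :
    LocalTangentBound M (A.decompositionSubgroup ℚ)
      (fun c => ∀ τ ∈ A.inertiaSubgroupIn ℚ, (c τ * M τ).trace = 0) 3 := by
  classical
  have hl0 : (l : k) ≠ 0 := fun h =>
    hlp ((Nat.prime_dvd_prime_iff_eq (Fact.out : p.Prime) hl).mp
      ((CharP.cast_eq_zero_iff k p l).mp h)).symm
  have h20 : (2 : k) ≠ 0 := fun h =>
    hp2 ((Nat.prime_dvd_prime_iff_eq (Fact.out : p.Prime) Nat.prime_two).mp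
      ((CharP.cast_eq_zero_iff k p 2).mp (by exact_mod_cast h)))
  haveI : Finite (DualNumber k) := Finite.of_injective
    (fun x : DualNumber k => (TrivSqZeroExt.fst x, TrivSqZeroExt.snd x)) fun _ _ h =>
      TrivSqZeroExt.ext (congrArg Prod.fst h) (congrArg Prod.snd h)
  obtain ⟨σ, hσ, hgen⟩ := Lower.exists_inertia_generator_all (Fact.out : p.Prime) hl hlp A hA
  obtain ⟨φ, hφ⟩ := GalCommon.exists_isFrobeniusAt hl hA
  -- the subspace of admissible cocycles
  let Z : Submodule k (GQ → 𝕄) :=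
    { carrier := {c | IsTangentCocycle M c ∧ ∀ τ ∈ A.inertiaSubgroupIn ℚ, (c τ * M τ).trace = 0}
      zero_mem' := ⟨(tangentCocycles M).zero_mem, fun τ _ => by simp⟩
      add_mem' := fun {c d} hc hd => ⟨(tangentCocycles M).add_mem hc.1 hd.1, fun τ hτ => by
        simp [add_mul, hc.2 τ hτ, hd.2 τ hτ]⟩
      smul_mem' := fun a c hc => ⟨(tangentCocycles M).smul_mem a hc.1, fun τ hτ => by
        simp [hc.2 τ hτ]⟩ }
  -- lifts and their finite quotient
  let f : ∀ {c : GQ → 𝕄}, IsTangentCocycle M c →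
      GQ →* (Matrix (Fin 2) (Fin 2) (DualNumber k))ˣ := fun hc => (liftMat M _ hc).toHomUnits
  have hfa : ∀ {c : GQ → 𝕄} (hc : IsTangentCocycle M c) (τ : GQ),
      (f hc τ : Matrix (Fin 2) (Fin 2) (DualNumber k)) = epsMat (M τ) (c τ * M τ) :=
    fun hc τ => rfl
  have htriv : ∀ {c : GQ → 𝕄} (hc : IsTangentCocycle M c), ∃ L : IntermediateField ℚ _,
      FiniteDimensional ℚ L ∧ ∀ τ : GQ, (∀ x ∈ L, τ x = x) → f hc τ = 1 := fun {c} hc => by
    obtain ⟨L, hL, h1⟩ := hM
    obtain ⟨L', hL', h2⟩ := hc.exists_level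
    exact ⟨L ⊔ L', inferInstance, fun τ hτ => Units.ext ((hfa hc τ).trans (epsMat_eq_one
      (h1 τ fun x hx => hτ x ((le_sup_left : L ≤ L ⊔ L') hx))
      (by rw [h2 τ fun x hx => hτ x ((le_sup_right : L' ≤ L ⊔ L') hx), zero_mul])))⟩
  have hpg : ∀ {c : GQ → 𝕄} (hc : c ∈ Z), ∀ τ ∈ A.inertiaSubgroupIn ℚ,
      ∃ j : ℕ, f hc.1 τ ^ p ^ j = 1 := fun {c} hc τ hτ => by
    refine ⟨1, Units.ext ?_⟩
    rw [pow_one, Units.val_pow_eq_pow_val, hfa, Units.val_one]
    set E := epsMat (M τ) (c τ * M τ) with hE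
    have hcomm : Commute (E - 1) 1 := Commute.one_right _
    have hsq : (E - 1) * (E - 1) = 0 := by
      set R := c τ * M τ
      have htrR : R.trace = 0 := hc.2 τ hτ
      have hE1 : E - 1 = epsMat (M τ - 1) R := by
        ext i j
        all_goals simp [hE, epsMat, Matrix.one_apply]
        all_goals split_ifs <;> simp
      rw [hE1, epsMat_mul, huni τ hτ]
      have htc : (c τ).trace = 0 := hc.1.trace_eq_zero τ
      set N := M τ - 1
      have hRN : R = c τ + c τ * N := by
        show c τ * M τ = _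
        rw [mul_sub, mul_one]; abel
      have h0 : N * R + R * N = 0 := by
        have hN2 := huni τ hτ
        -- Cayley–Hamilton, polarised
        have e00 := congrFun (congrFun hN2 0) 0
        have e01 := congrFun (congrFun hN2 0) 1
        have e10 := congrFun (congrFun hN2 1) 0
        have e11 := congrFun (congrFun hN2 1) 1
        rw [Matrix.trace_fin_two] at htrR htc
        simp [hRN, Matrix.mul_apply, Fin.sum_univ_two] at htrR
        simp [N, Matrix.mul_apply, Fin.sum_univ_two] at e00 e01 e10 e11 htrR ⊢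
        have hnil : IsNilpotent N := ⟨2, by rw [sq]; exact hN2⟩
        have htrN : N 0 0 + N 1 1 = 0 := by
          have := (Matrix.isNilpotent_trace_of_isNilpotent hnil).eq_zero
          rwa [Matrix.trace_fin_two] at this
        ext i j
        fin_cases i <;> fin_cases j <;>
          simp [hRN, Matrix.mul_apply, Fin.sum_univ_two, N] <;> simp [N] at htrN <;> grobner
      rw [h0]
      ext i j <;> simp [epsMat]
    calc E ^ p = ((E - 1) + 1) ^ p := by rw [sub_add_cancel]
      _ = (E - 1) ^ p + 1 := by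
          haveI : CharP (Matrix (Fin 2) (Fin 2) (DualNumber k)) p := by
            haveI : CharP (DualNumber k) p :=
              charP_of_injective_ringHom (f := algebraMap k (DualNumber k))
                (algebraMap k (DualNumber k)).injective p
            infer_instance
          rw [add_pow_char_of_commute (R := Matrix (Fin 2) (Fin 2) (DualNumber k)) p hcomm,
            one_pow]
      _ = 1 := by
          obtain ⟨m, hm⟩ := Nat.exists_eq_add_of_le (Fact.out : p.Prime).two_le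
          rw [hm, pow_add, pow_two, hsq, zero_mul, zero_add]
  have hquot : ∀ {c : GQ → 𝕄} (hc : c ∈ Z), ∀ τ ∈ A.inertiaSubgroupIn ℚ,
      f hc.1 τ ∈ Subgroup.zpowers (f hc.1 σ) := fun {c} hc τ hτ => by
    obtain ⟨L, hL, h⟩ := htriv hc.1
    exact hgen { G := _, f := f hc.1, L := L, triv := h, pgroup := hpg hc } τ hτ
  -- `σ` is not trivial residually
  have hσ1 : M σ ≠ 1 := fun h => by
    obtain ⟨τ, hτ, hne⟩ := hram
    have h0 : (0 : GQ → 𝕄) ∈ Z := Z.zero_mem
    obtain ⟨m, hm⟩ := Subgroup.mem_zpowers_iff.mp (hquot h0 τ hτ)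
    have e : f h0.1 σ = 1 := Units.ext ((hfa h0.1 σ).trans (epsMat_eq_one h (zero_mul _)))
    rw [e, _root_.one_zpow] at hm
    have e2 := (hfa h0.1 τ).symm.trans (congrArg Units.val hm.symm)
    rw [Units.val_one, ← epsMat_one_zero (k := k)] at e2
    exact hne (epsMat_inj e2).1
  obtain ⟨P, hP⟩ := exists_unipotent_basis (huni σ hσ) hσ1
  let cj : 𝕄 → 𝕄 := fun X => (↑P⁻¹ : 𝕄) * X * (P : 𝕄)
  have cj_mul : ∀ X Y, cj (X * Y) = cj X * cj Y := fun X Y => by
    simp only [cj, mul_assoc, Units.mul_inv_cancel_left]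
  have cj_zero : ∀ X, cj X = 0 → X = 0 := fun X h => by
    have := congrArg (fun Z => (P : 𝕄) * Z * (↑P⁻¹ : 𝕄)) h
    simpa [cj, mul_assoc] using this
  let L₁ : (GQ → 𝕄) →ₗ[k] (Fin 3 → k) :=
    { toFun := fun c => ![cj (c φ) 0 1, cj (c σ) 0 1,
        if (l : k) = 1 then cj (c σ) 0 0 else cj (c φ) 1 0]
      map_add' := fun c d => by
        ext i; fin_cases i <;> simp [cj, mul_add, add_mul]
        split_ifs <;> simp
      map_smul' := fun a c => by
        ext i; fin_cases i <;> simp [cj] }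
  let ψ := L₁.comp Z.subtype
  let ρ := (restrictTo (A.decompositionSubgroup ℚ)).comp Z.subtype
  have hker : LinearMap.ker ψ ≤ LinearMap.ker ρ := by
    rintro ⟨c, hcZ⟩ hc
    have h0 : L₁ c = 0 := hc
    have hy : cj (c φ) 0 1 = 0 := congrFun h0 0
    have hb : cj (c σ) 0 1 = 0 := congrFun h0 1
    have hw : (if (l : k) = 1 then cj (c σ) 0 0 else cj (c φ) 1 0) = 0 := congrFun h0 2
    obtain ⟨L, hL, hLt⟩ := htriv hcZ.1
    obtain ⟨i₀, -, -, hF⟩ := Mazur.Tame.exists_inertia_generator (f hcZ.1) L hLt hl A hA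
      (Fact.out : p.Prime) (Ne.symm hlp) (hpg hcZ)
    have hrel := hF φ hφ σ hσ
    rw [map_mul, map_mul, map_inv, mul_inv_eq_iff_eq_mul] at hrel
    let C : Matrix (Fin 2) (Fin 2) (DualNumber k) →* Matrix (Fin 2) (Fin 2) (DualNumber k) :=
      { toFun := fun Z => epsMat (↑P⁻¹ : 𝕄) 0 * Z * epsMat (P : 𝕄) 0
        map_one' := by rw [mul_one, epsMat_mul, Units.inv_mul, mul_zero, zero_mul, add_zero,
          epsMat_one_zero]
        map_mul' := fun Z Z' => by
          have : epsMat (P : 𝕄) 0 * epsMat (↑P⁻¹ : 𝕄) 0 = 1 := by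
            rw [epsMat_mul, Units.mul_inv, mul_zero, zero_mul, add_zero, epsMat_one_zero]
          simp only [mul_assoc]
          rw [← mul_assoc (epsMat (P : 𝕄) 0), this, one_mul] }
    have hC : ∀ τ, C (f hcZ.1 τ : Matrix (Fin 2) (Fin 2) (DualNumber k)) =
        epsMat (cj (M τ)) (cj (c τ) * cj (M τ)) := fun τ => by
      show epsMat (↑P⁻¹ : 𝕄) 0 * _ * epsMat (P : 𝕄) 0 = _
      rw [hfa, epsMat_mul, epsMat_mul, ← cj_mul]
      simp [cj, mul_assoc]
    have hrel' := congrArg (fun u : (Matrix (Fin 2) (Fin 2) (DualNumber k))ˣ => C u.1) hrel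
    simp only [Units.val_mul, Units.val_pow_eq_pow_val, map_mul, map_pow, hC] at hrel'
    rw [show cj (M σ) = !![1, 1; 0, 1] from hP] at hrel'
    have hFU : cj (M φ) * !![1, 1; 0, 1] = !![1, (l : k); 0, 1] * cj (M φ) := by
      obtain ⟨t, -, e⟩ := epsMat_pow_upper (X := (0 : 𝕄)) (a := 0) (s := 0)
        (by ext i j; fin_cases i <;> fin_cases j <;> simp) l
      have h := hrel'
      rw [epsMat_mul] at h
      have e2 : (epsMat (!![1, 1; 0, 1] : 𝕄) (cj (c σ) * !![1, 1; 0, 1]) ^ l).map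
          TrivSqZeroExt.fst = !![1, (l : k); 0, 1] := by
        have hmap : ∀ B : 𝕄, ∀ A : 𝕄, (epsMat A B).map TrivSqZeroExt.fst = A := fun B A => by
          ext i j; simp [epsMat]
        have hpow : ∀ B B' : 𝕄, ((epsMat (!![1, 1; 0, 1] : 𝕄) B) ^ l).map TrivSqZeroExt.fst =
            ((epsMat (!![1, 1; 0, 1] : 𝕄) B') ^ l).map TrivSqZeroExt.fst := fun B B' => by
          let F : Matrix (Fin 2) (Fin 2) (DualNumber k) →+* 𝕄 :=
            (TrivSqZeroExt.fstHom k k k).toRingHom.mapMatrix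
          show F (_ ^ l) = F (_ ^ l)
          rw [map_pow, map_pow]
          exact congrArg (· ^ l) ((hmap B _).trans (hmap B' _).symm)
        rw [hpow _ ((0 : 𝕄) * !![1, 1; 0, 1]), e, hmap]
      have e3 := congrArg (fun Z : Matrix (Fin 2) (Fin 2) (DualNumber k) =>
        (TrivSqZeroExt.fstHom k k k).toRingHom.mapMatrix Z) h
      simp only [map_mul] at e3
      change (epsMat _ _).map TrivSqZeroExt.fst =
        (_ : Matrix (Fin 2) (Fin 2) (DualNumber k)).map TrivSqZeroExt.fst *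
          (epsMat _ _).map TrivSqZeroExt.fst at e3
      rw [e2] at e3
      have hmap : ∀ B : 𝕄, ∀ A : 𝕄, (epsMat A B).map TrivSqZeroExt.fst = A := fun B A => by
        ext i j; simp [epsMat]
      rw [hmap, hmap] at e3
      exact e3
    have hdetF : (cj (M φ)).det ≠ 0 := fun h => by
      have := congrArg Matrix.det (show cj (M φ) * cj (M φ⁻¹) = 1 by
        rw [← cj_mul, mul_inv_eq_one]; simp [cj])
      rw [Matrix.det_mul, h, zero_mul, Matrix.det_one] at this
      exact zero_ne_one this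
    obtain ⟨hX, hY⟩ := eq_zero_of_coords hl0 h20
      ((trace_conj P _).trans (hcZ.1.trace_eq_zero σ))
      ((trace_conj P _).trans (hcZ.1.trace_eq_zero φ))
      (by
        rw [← hP, show (↑P⁻¹ : 𝕄) * M σ * (P : 𝕄) = cj (M σ) from rfl, ← cj_mul]
        exact (trace_conj P _).trans (hcZ.2 σ hσ))
      hdetF hFU hrel' hy hb
      ⟨fun h => by rwa [if_pos h] at hw, fun h => by rwa [if_neg h] at hw⟩
    have hcσ := cj_zero _ hX
    have hcφ := cj_zero _ hY
    let H : Subgroup GQ :=
      { carrier := {τ | c τ = 0}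
        one_mem' := by
          have := hcZ.1.map_mul 1 1
          simp [adAct] at this
          exact this
        mul_mem' := fun {a b} (ha : c a = 0) (hb : c b = 0) => by
          show c (a * b) = 0
          rw [hcZ.1.map_mul, ha, hb]; simp [adAct]
        inv_mem' := fun {a} (ha : c a = 0) => by
          show c a⁻¹ = 0
          have h1 := hcZ.1.map_mul a⁻¹ a
          have h2 := hcZ.1.map_mul 1 1
          simp [adAct] at h2
          rw [inv_mul_cancel, h2, ha] at h1
          simp [adAct] at h1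
          exact h1.symm }
    refine funext fun τ => ?_
    show c τ = 0
    obtain ⟨i, ι, hι, hag⟩ := @LocP.exists_eq_frob_pow_mul A l ⟨hl⟩ hA φ hφ (τ : GQ) τ.2 L _
    obtain ⟨m, hm⟩ := Subgroup.mem_zpowers_iff.mp (hquot hcZ ι hι)
    have e : f hcZ.1 τ = f hcZ.1 (φ ^ i * σ ^ m) := by
      rw [map_mul, map_zpow, hm, ← map_mul]
      refine (_root_.inv_mul_eq_one (G := (Matrix (Fin 2) (Fin 2) (DualNumber k))ˣ)).mp ?_
      rw [← map_inv, ← map_mul]
      refine hLt _ fun x hx => ?_
      rw [AlgEquiv.mul_apply, ← hag x hx, ← AlgEquiv.mul_apply, inv_mul_cancel, AlgEquiv.one_apply]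
    have hmem : c (φ ^ i * σ ^ m) = 0 :=
      H.mul_mem (H.pow_mem hcφ i) (H.zpow_mem hcσ m)
    have e' : epsMat (M (τ : GQ)) (c τ * M (τ : GQ)) =
        epsMat (M (φ ^ i * σ ^ m)) (c (φ ^ i * σ ^ m) * M (φ ^ i * σ ^ m)) :=
      (hfa _ _).symm.trans ((congrArg Units.val e).trans (hfa _ _))
    have e'' := (epsMat_inj e').2
    rw [hmem, zero_mul] at e''
    have := congrArg (· * M (τ : GQ)⁻¹) e''
    simpa [mul_assoc, mul_inv_eq_one] using this
  haveI : Module.Finite k (Z ⧸ LinearMap.ker ψ) :=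
    Module.Finite.equiv ψ.quotKerEquivRange.symm
  let g := (LinearMap.ker ψ).liftQ ρ hker
  have hg : LinearMap.range g = LinearMap.range ρ := Submodule.range_liftQ _ _ _
  have hdim : Module.finrank k (LinearMap.range ρ) ≤ 3 := by
    rw [← hg]
    refine (LinearMap.finrank_range_le g).trans ?_
    rw [ψ.quotKerEquivRange.finrank_eq]
    exact (Submodule.finrank_le _).trans (Module.finrank_fin_fun k).le
  haveI : Module.Finite k (LinearMap.range ρ) := hg ▸ inferInstance
  refine ⟨LinearMap.range ρ, inferInstance, hdim, fun X hX => ?_,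
    fun c hc hcond => ⟨⟨c, hc, hcond⟩, rfl⟩⟩
  · refine ⟨⟨coboundary M X, ⟨?_, ?_⟩⟩, rfl⟩
    · refine ⟨fun σ τ => ?_, fun σ => ?_, ?_⟩
      · show adAct M (σ * τ) X - X = (adAct M σ X - X) + adAct M σ (adAct M τ X - X)
        simp only [adAct, mul_sub, sub_mul, map_mul, _root_.mul_inv_rev, mul_assoc]
        abel
      · show (adAct M σ X - X).trace = 0
        rw [Matrix.trace_sub, trace_adAct, sub_self]
      · obtain ⟨L, hL, h⟩ := hM
        refine ⟨L, hL, fun σ hσ => ?_⟩
        show M σ * X * M σ⁻¹ - X = 0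
        have h1 : M σ⁻¹ = 1 := h σ⁻¹ fun x hx => by
          conv_lhs => rw [← hσ x hx]
          rw [← AlgEquiv.mul_apply, inv_mul_cancel, AlgEquiv.one_apply]
        rw [h σ hσ, h1, one_mul, mul_one, sub_self]
    · intro τ hτ
      show ((M τ * X * M τ⁻¹ - X) * M τ).trace = 0
      rw [sub_mul, mul_assoc, inv_mul_eq_one, mul_one, Matrix.trace_sub, Matrix.trace_mul_comm,
        sub_self]

end FLTAgent.TW
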