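import Fermat.Agent.TW.SurjR
import Fermat.Agent.TW.LocalAtP
import Fermat.Agent.TW.Unipotent
import Fermat.Agent.TW.Global.Count

/-!
# Taylor–Wiles primes killing the relative tangent space

For a condition at `p` with tangent bound `4`, the universal ring with auxiliary primes
`q₁, …, q_r` is a quotient of the power series ring in `r` variables (`exists_surjective_half`).
-/

set_option autoImplicit false
set_option linter.style.haveILetI false

noncomputable section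

namespace FLTAgent.TW

open Matrix IsLocalRing FLTAgent.Deform
open scoped DualNumber Pointwise

variable {𝒪 : Type} [CommRing 𝒪] [IsDomain 𝒪] [IsDiscreteValuationRing 𝒪]
  [IsAdicComplete (maximalIdeal 𝒪) 𝒪] [Finite (ResidueField 𝒪)]

local notation "𝕜" => ResidueField 𝒪

/-- Unipotence of a lift gives unipotence of the residual matrices. -/
theorem sub_one_sq_eq_zero_of_lift {T : Type} [CommRing T] [IsLocalRing T] {k : Type} [Field k]
    (i : k →+* ResidueField T) (ρbar : ResidualGaloisRep k)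
    (b₀ : Module.Basis (Fin 2) k ρbar.V) (ρ : GaloisRepAdic T)
    (he : ρ.residual.IsEquiv (ρbar.baseChangeAlong i)) {τ : GQ}
    (h : LinearMap.charpoly (ρ.ρ τ) = (Polynomial.X - 1) ^ 2) :
    (barMat ρbar b₀ τ - 1) * (barMat ρbar b₀ τ - 1) = 0 := by
  obtain ⟨b, hb⟩ := Lower.exists_basis_residual ρ ρbar b₀ i he
  have h1 := LinearMap.aeval_self_charpoly (ρ.ρ τ)
  rw [h, map_pow, map_sub, Polynomial.aeval_X, map_one, sq] at h1
  have h2 : (Lower.matHom ρ b τ - 1) * (Lower.matHom ρ b τ - 1) = 0 := by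
    have h3 := congrArg (LinearMap.toMatrixAlgEquiv b) h1
    rw [map_mul, map_sub, map_one, map_zero] at h3
    exact h3
  have hres : barMat ρbar b₀ τ = Lower.resMat ρbar b₀ τ := by
    ext r s
    rw [barMat_apply, LinearMap.toMatrix_apply]
    rfl
  have h4 := congrArg (residue T).mapMatrix h2
  rw [map_mul, map_sub, map_one, map_zero, hb, ← hres, ← map_one i.mapMatrix, ← map_sub,
    ← map_mul, ← map_zero i.mapMatrix] at h4
  exact Matrix.map_injective i.injective h4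

/-- Taylor–Wiles primes for one condition at `p`. -/
theorem exists_surjective_half (p : ℕ) [Fact p.Prime] (hp2 : p ≠ 2)
    (hp𝒪 : (p : 𝒪) ∈ maximalIdeal 𝒪) (ρbar : ResidualGaloisRep 𝕜)
    (habs : ρbar.IsAbsolutelyIrreducible)
    (hdet : (GaloisRepAdic.ofResidualGaloisRep ρbar).DetIsCyclotomic p)
    (hsplit : ∀ σ : GQ, ∃ α β : 𝕜, LinearMap.charpoly (ρbar.ρ σ) =
      (Polynomial.X - Polynomial.C α) * (Polynomial.X - Polynomial.C β))
    (hbig : ∀ (K : Type) [Field K] [Algebra 𝕜 K] (G : Subgroup GQ), G.index = 2 →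
      ∀ V : Submodule K (ρbar.baseChange K).V,
        (∀ σ ∈ G, ∀ x ∈ V, (ρbar.baseChange K).ρ σ x ∈ V) → V = ⊥ ∨ V = ⊤)
    (S Smin : Finset ℕ) (hpSmin : p ∈ Smin) (hSmin : Smin ⊆ S) (hS : ∀ q ∈ S, q.Prime)
    (hmin : ∀ q : ℕ, q.Prime → q ≠ p → (q ∈ Smin ↔ ¬ ρbar.IsUnramifiedAt q))
    (cond : ∀ ⦃A : Type⦄ [CommRing A] [IsLocalRing A], GaloisRepAdic A → Prop)
    (hbc : ∀ (T : Type) [CommRing T] [IsLocalRing T] (f : T →+* DualNumber 𝕜) (hf : IsLocalHom f)
      (ρ : GaloisRepAdic T), Function.Surjective f → cond ρ → cond (ρ.baseChangeAlong f hf))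
    (hequiv : ∀ ρ₁ ρ₂ : GaloisRepAdic (DualNumber 𝕜), ρ₁.IsEquiv ρ₂ → cond ρ₁ → cond ρ₂)
    (hbound : ∀ [CharP 𝕜 p] (M : MatRep 𝕜) (hM : FactorsFinite M), DetCyclotomic M p →
      CharpolySplits M → ∀ P : ValuationSubring (AlgebraicClosure ℚ), P.LiesOverPrime p →
      LocalTangentBound M (P.decompositionSubgroup ℚ)
        (fun c => ∀ hc : IsTangentCocycle M c, cond (liftRep hM hc)) 4) :
    ∃ r : ℕ, ∀ n : ℕ, ∃ qv : Fin r → ℕ, Function.Injective qv ∧
      (∀ i, (qv i).Prime ∧ qv i ∉ S ∧ p ^ (n + 1) ∣ qv i - 1) ∧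
      (∀ i, ∀ P : ValuationSubring (AlgebraicClosure ℚ), P.LiesOverPrime (qv i) →
        ∀ φ : GQ, P.IsFrobeniusAt φ (qv i) →
          ∃ α β : 𝕜, α ≠ β ∧ LinearMap.charpoly (ρbar.ρ φ) =
            (Polynomial.X - Polynomial.C α) * (Polynomial.X - Polynomial.C β)) ∧
      ∀ DQ : GaloisRep.DeformationRingData 𝒪 ρbar (fun _A _ _ _ ρ =>
          (ρ.DetIsCyclotomic p ∧ cond ρ ∧
            ∀ q : ℕ, q.Prime → q ∉ Smin ∪ Finset.univ.image qv → ρ.IsUnramifiedAt q) ∧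
            ∀ q ∈ Smin, q.Prime → q ≠ p → ρ.IsUnipotentOnInertiaAt q),
        ∃ γ : MvPowerSeries (Fin r) 𝒪 →ₐ[𝒪] DQ.R, Function.Surjective γ := by
  classical
  haveI := GalCommon.normal_Qbar
  have hp : p.Prime := Fact.out
  haveI : CharP 𝕜 p := by
    have h0 : (p : 𝕜) = 0 := by
      rw [← map_natCast (residue 𝒪), residue_eq_zero_iff]; exact hp𝒪
    exact CharP.ringChar_of_prime_eq_zero hp h0 ▸ ringChar.charP 𝕜
  let b₀ : Module.Basis (Fin 2) 𝕜 ρbar.V := Module.finBasisOfFinrankEq 𝕜 ρbar.V ρbar.finrank_eq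
  set M := barMat ρbar b₀ with hMdef
  have hM := factorsFinite_barMat ρbar b₀
  have hA : Adequate M p := ⟨hp2, hM, detCyclotomic_barMat b₀ hdet,
    charpolySplits_barMat ρbar b₀ hsplit, span_barMat_eq_top ρbar b₀ habs,
    bigImage_barMat ρbar b₀ hbig⟩
  have hSm : ∀ l ∈ Smin, l.Prime := fun l hl => hS l (hSmin hl)
  have hunr : ∀ q : ℕ, q.Prime → q ∉ Smin → ∀ P : ValuationSubring (AlgebraicClosure ℚ),
      P.LiesOverPrime q → ∀ τ ∈ P.inertiaSubgroupIn ℚ, M τ = 1 := fun q hq hqS P hP τ hτ => by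
    have hu : ρbar.IsUnramifiedAt q := by
      by_contra h
      exact hqS ((hmin q hq fun e => hqS (e ▸ hpSmin)).mpr h)
    rw [hMdef, barMat_apply, hu P hP τ hτ, LinearMap.toMatrix_one]
  obtain ⟨r, hr⟩ := exists_twPrimes hp2 M hM hA.det hA.split hA.span hA.big Smin hpSmin hSm hunr
  refine ⟨r, fun n => ?_⟩
  obtain ⟨qv, hinj, hqv, hT⟩ := hr n S
  refine ⟨qv, hinj, fun i => ⟨(hqv i).1.prime, (hqv i).2.2, (hqv i).1.dvd⟩,
    fun i P hP φ hφ => distinct_charpoly_of_isAuxPrime ρbar b₀ (hqv i).1 P hP φ hφ, fun DQ => ?_⟩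
  obtain ⟨⟨hdetR, hcondR, hunrR⟩, huniR⟩ := DQ.isOfType
  -- places
  have hex : ∀ l : ℕ, ∃ P : ValuationSubring (AlgebraicClosure ℚ), l.Prime → P.LiesOverPrime l :=
    fun l => by
      by_cases hlp : l.Prime
      · obtain ⟨P, hP⟩ := GalCommon.exists_liesOverPrime hlp
        exact ⟨P, fun _ => hP⟩
      · exact ⟨⊤, fun h => absurd h hlp⟩
  choose A hA' using hex
  have hu3 : ∀ l ∈ Smin, l ≠ p → LocalTangentBound M ((A l).decompositionSubgroup ℚ)
      (fun c => ∀ τ ∈ (A l).inertiaSubgroupIn ℚ, (c τ * M τ).trace = 0) 3 := by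
    intro l hl hlp
    have hlP := hSm l hl
    refine localTangentBound_unipotent hp2 hlP hlp M hM (A l) (hA' l hlP) (fun τ hτ =>
      sub_one_sq_eq_zero_of_lift _ ρbar b₀ DQ.ρ DQ.residual_isEquiv
        (huniR l hl hlP hlp (A l) (hA' l hlP) τ hτ)) ?_
    by_contra hall
    push Not at hall
    refine (hmin l hlP hlp).mp hl fun P hP τ hτ => ?_
    obtain ⟨g, hg⟩ := GalCommon.exists_smul_eq_of_liesOverPrime hlP (hA' l hlP) hP
    subst hg
    have h1 := GalCommon.mem_inertia_conj hτ g⁻¹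
    rw [inv_smul_smul, inv_inv] at h1
    have h2 := hall _ h1
    rw [map_mul, map_mul, hMdef, barMat_apply, barMat_apply, barMat_apply] at h2
    have h3 : LinearMap.toMatrix b₀ b₀ (ρbar.ρ g⁻¹ * ρbar.ρ τ * ρbar.ρ g) =
        LinearMap.toMatrix b₀ b₀ 1 := by
      rw [LinearMap.toMatrix_mul, LinearMap.toMatrix_mul, LinearMap.toMatrix_one]; exact h2
    have h4 := (LinearMap.toMatrix b₀ b₀).injective h3
    calc ρbar.ρ τ = ρbar.ρ g * (ρbar.ρ g⁻¹ * ρbar.ρ τ * ρbar.ρ g) * ρbar.ρ g⁻¹ := by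
          simp only [← map_mul]; group
      _ = 1 := by rw [h4, mul_one, ← map_mul, mul_inv_cancel, map_one]
  let d : ℕ → ℕ := fun l => if l = p then 4 else 3
  have hWex : ∀ l : ℕ, ∃ W : Submodule 𝕜 ((A l).decompositionSubgroup ℚ →
      Matrix (Fin 2) (Fin 2) 𝕜), l ∈ Smin →
      (Module.Finite 𝕜 W ∧ Module.finrank 𝕜 W ≤ d l ∧
        ∀ X : Matrix (Fin 2) (Fin 2) 𝕜, X.trace = 0 →
          restrictTo ((A l).decompositionSubgroup ℚ) (coboundary M X) ∈ W) ∧
      ∀ (ρ : GaloisRepAdic (DualNumber 𝕜)) (b : Module.Basis (Fin 2) (DualNumber 𝕜) ρ.V)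
        (c : GQ → Matrix (Fin 2) (Fin 2) 𝕜), IsTangentCocycle M c →
        (∀ σ, matOf ρ b σ = epsMat (M σ) (c σ * M σ)) → cond ρ →
        (l ≠ p → ρ.IsUnipotentOnInertiaAt l) →
        restrictTo ((A l).decompositionSubgroup ℚ) c ∈ W := by
    intro l
    by_cases hl : l ∈ Smin
    swap
    · exact ⟨⊥, fun h => absurd h hl⟩
    by_cases hlp : l = p
    · subst hlp
      obtain ⟨W, h1, h2, h3, h4⟩ := hbound M hM hA.det hA.split (A l) (hA' l hp)
      exact ⟨W, fun _ => ⟨⟨h1, le_of_le_of_eq h2 (if_pos rfl).symm, h3⟩,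
        fun ρ b c hc hb hcond _ => h4 c hc fun hc' =>
          hequiv _ _ (isEquiv_liftRep hM hc' ρ b hb) hcond⟩⟩
    · obtain ⟨W, h1, h2, h3, h4⟩ := hu3 l hl hlp
      exact ⟨W, fun _ => ⟨⟨h1, le_of_le_of_eq h2 (if_neg hlp).symm, h3⟩,
        fun ρ b c hc hb _ huni => h4 c hc fun t ht =>
          trace_eq_zero_of_charpoly ρ b hb (huni hlp (A l) (hA' l (hSm l hl)) t ht)⟩⟩
  choose W hW using hWex
  have hsum : ∑ l ∈ Smin, d l = 3 * Smin.card + 1 := by
    rw [← Finset.add_sum_erase Smin d hpSmin, Finset.sum_congr rfl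
      (g := fun _ => 3) fun l hl => if_neg (Finset.mem_erase.mp hl).1, Finset.sum_const,
      Finset.card_erase_of_mem hpSmin, smul_eq_mul]
    have := Finset.card_pos.mpr ⟨p, hpSmin⟩
    simp only [d, if_pos]
    omega
  obtain ⟨-, hdetect⟩ := hT A (fun l hl => hA' l (hSm l hl)) W d fun l hl => (hW l hl).1
  obtain ⟨σ, hσ⟩ := hdetect r (by omega)
  refine exists_surjective_of_tests DQ b₀ hA hdetR ?_ σ ?_
  · intro f hf hfs
    refine ⟨⟨Lower.detIsCyclotomic_baseChangeAlong f hf hdetR, hbc DQ.R f hf DQ.ρ hfs hcondR,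
      fun q hq hqS P hP τ hτ => ?_⟩, fun q hq hqp hne P hP τ hτ => ?_⟩
    · letI : Algebra DQ.R (DualNumber 𝕜) := f.toAlgebra
      show (DQ.ρ.ρ τ).baseChange (DualNumber 𝕜) = 1
      rw [hunrR q hq hqS P hP τ hτ, LinearMap.baseChange_one]
    · letI : Algebra DQ.R (DualNumber 𝕜) := f.toAlgebra
      show LinearMap.charpoly ((DQ.ρ.ρ τ).baseChange (DualNumber 𝕜)) = _
      rw [LinearMap.charpoly_baseChange, huniR q hq hqp hne P hP τ hτ]
      simp
  · intro ρ' hres' hD htest τ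
    obtain ⟨⟨hdet', hcond', hunr'⟩, huni'⟩ := hD
    obtain ⟨b, c, hc, hb⟩ := exists_cocycle_of_rep (p := p) ρbar b₀ ρ' hres' hdet'
    rw [trace_snd_of_matOf ρ' b hb]
    exact hσ c hc (fun q hq hqS hqQ P hP t ht => cocycle_eq_zero_of_apply_eq_one ρ' b hb
        (hunr' q hq (by simp only [Finset.mem_union]; tauto) P hP t ht))
      (fun l hl => (hW l hl).2 ρ' b c hc hb hcond' fun hne => huni' l hl (hSm l hl) hne)
      (fun j => (trace_snd_of_matOf ρ' b hb (σ j)).symm.trans (htest j)) τ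

end FLTAgent.TW
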