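import Fermat.Agent.TW.Defs
import Fermat.Prelude.Def_GaloisRep_LocalConditions

/-!
# Representations over the dual numbers and their cocycles

The matrices `barMat` of a residual representation, and `exists_cocycle_of_rep`: a deformation
to `k[ε]` with cyclotomic determinant has a basis in which it is `σ ↦ (1 + ε c σ) M σ` for a
trace zero cocycle `c`.
-/

set_option autoImplicit false

noncomputable section

namespace FLTAgent.TW

open Matrix IsLocalRing FLTAgent.Deform
open scoped DualNumber TensorProduct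

variable {k : Type} [Field k]

local notation "𝕄" => Matrix (Fin 2) (Fin 2) k

/-- The matrices of a residual representation. -/
def barMat (ρbar : ResidualGaloisRep k) (b₀ : Module.Basis (Fin 2) k ρbar.V) : MatRep k :=
  (LinearMap.toMatrixAlgEquiv b₀).toAlgHom.toRingHom.toMonoidHom.comp ρbar.ρ

theorem barMat_apply (ρbar : ResidualGaloisRep k) (b₀ : Module.Basis (Fin 2) k ρbar.V) (σ : GQ) :
    barMat ρbar b₀ σ = LinearMap.toMatrix b₀ b₀ (ρbar.ρ σ) := rfl

theorem factorsFinite_barMat (ρbar : ResidualGaloisRep k)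
    (b₀ : Module.Basis (Fin 2) k ρbar.V) : FactorsFinite (barMat ρbar b₀) := by
  obtain ⟨L, hL, h⟩ := ρbar.factorsThroughFiniteLevel
  exact ⟨L, hL, fun σ hσ => by rw [barMat_apply, h σ hσ, LinearMap.toMatrix_one]⟩

theorem exists_cyclotomic_exponent (p : ℕ) [NeZero p] (σ : GQ) :
    ∃ a : ℕ, ∀ μ : AlgebraicClosure ℚ, μ ^ p = 1 → σ μ = μ ^ a := by
  obtain ⟨ζ, hζ⟩ := HasEnoughRootsOfUnity.exists_primitiveRoot (AlgebraicClosure ℚ) p
  obtain ⟨a, -, ha⟩ := hζ.eq_pow_of_pow_eq_one (ξ := σ ζ) (by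
    rw [← map_pow, hζ.pow_eq_one, map_one])
  refine ⟨a, fun μ hμ => ?_⟩
  obtain ⟨i, -, rfl⟩ := hζ.eq_pow_of_pow_eq_one hμ
  rw [map_pow, ← ha, ← pow_mul, ← pow_mul, mul_comm]

theorem fst_eq_zero_of_mem_maximalIdeal {x : DualNumber k}
    (hx : x ∈ maximalIdeal (DualNumber k)) : TrivSqZeroExt.fst x = 0 := by
  by_contra h
  exact hx (TrivSqZeroExt.isUnit_iff_isUnit_fst.mpr (isUnit_iff_ne_zero.mpr h))

theorem maximalIdeal_sq_eq_zero {x : DualNumber k}
    (hx : x ∈ maximalIdeal (DualNumber k) ^ 2) : x = 0 := by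
  rw [sq] at hx
  refine Submodule.mul_induction_on hx (fun a ha b hb => ?_) fun a b ha hb => by rw [ha, hb, add_zero]
  ext
  · simp [fst_eq_zero_of_mem_maximalIdeal ha]
  · simp [fst_eq_zero_of_mem_maximalIdeal ha, fst_eq_zero_of_mem_maximalIdeal hb]

theorem residue_eq_residue_inl (x : DualNumber k) :
    residue (DualNumber k) x = residue (DualNumber k) (TrivSqZeroExt.inl (TrivSqZeroExt.fst x)) := by
  rw [← sub_eq_zero, ← map_sub, residue_eq_zero_iff]
  show ¬ IsUnit _
  rw [TrivSqZeroExt.isUnit_iff_isUnit_fst]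
  simp

/-- A lift has a basis in which its reduction is the given matrix representation. -/
theorem exists_basis_map_fst (ρbar : ResidualGaloisRep k) (b₀ : Module.Basis (Fin 2) k ρbar.V)
    (ρ : GaloisRepAdic (DualNumber k))
    (h : ρ.residual.IsEquiv (ρbar.baseChangeAlong
      ((residue (DualNumber k)).comp (algebraMap k (DualNumber k))))) :
    ∃ b : Module.Basis (Fin 2) (DualNumber k) ρ.V,
      ∀ σ, (matOf ρ b σ).map TrivSqZeroExt.fst = barMat ρbar b₀ σ := by
  classical
  let ι := (residue (DualNumber k)).comp (algebraMap k (DualNumber k))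
  let := ι.toAlgebra
  obtain ⟨e⟩ := h
  let F := ResidueField (DualNumber k)
  let b₁ : Module.Basis (Fin 2) F (ρbar.baseChangeAlong ι).V := Algebra.TensorProduct.basis F b₀
  let bk : Module.Basis (Fin 2) F (F ⊗[DualNumber k] ρ.V) := b₁.map e.toLinearEquiv.symm
  have hv : ∀ i, ∃ v : ρ.V, (1 : F) ⊗ₜ[DualNumber k] v = bk i := fun i =>
    TensorProduct.mk_surjective _ ρ.V F residue_surjective (bk i)
  choose v hv using hv
  have hspan : Submodule.span (DualNumber k) (Set.range v) = ⊤ :=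
    IsLocalRing.span_eq_top_of_tmul_eq_basis v bk hv
  let b : Module.Basis (Fin 2) (DualNumber k) ρ.V := basisOfTopLeSpanOfCardEqFinrank v hspan.ge
    (by rw [Fintype.card_fin, ρ.finrank_eq])
  refine ⟨b, fun σ => Matrix.ext fun i j => ι.injective ?_⟩
  rw [Matrix.map_apply]
  show residue _ (TrivSqZeroExt.inl _) = _
  refine Eq.trans (residue_eq_residue_inl _).symm ?_
  have hb : Algebra.TensorProduct.basis F b = bk := Module.Basis.eq_of_apply_eq fun i => by
    rw [Algebra.TensorProduct.basis_apply, coe_basisOfTopLeSpanOfCardEqFinrank, hv]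
  have h1 : (matOf ρ b σ).map (residue _) = LinearMap.toMatrix bk bk ((ρ.ρ σ).baseChange F) := by
    rw [← hb, LinearMap.toMatrix_baseChange]; rfl
  have h2 : (barMat ρbar b₀ σ).map ι =
      LinearMap.toMatrix b₁ b₁ ((ρbar.baseChangeAlong ι).ρ σ) :=
    (LinearMap.toMatrix_baseChange F (ρbar.ρ σ) b₀ b₀).symm
  have h3 : LinearMap.toMatrix bk bk ((ρ.ρ σ).baseChange F) =
      LinearMap.toMatrix b₁ b₁ ((ρbar.baseChangeAlong ι).ρ σ) := by
    ext r s
    rw [LinearMap.toMatrix_apply, LinearMap.toMatrix_apply]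
    simp only [bk]
    have := e.map_apply σ (e.toLinearEquiv.symm (b₁ s))
    rw [LinearEquiv.apply_symm_apply] at this
    exact congrArg (fun y => b₁.repr y r) this
  exact congrFun (congrFun ((h1.trans h3).trans h2.symm) i) j

theorem epsMat_fst_snd (X : Matrix (Fin 2) (Fin 2) (DualNumber k)) :
    epsMat (X.map TrivSqZeroExt.fst) (X.map TrivSqZeroExt.snd) = X := by
  ext i j <;> simp [epsMat]

theorem epsMat_inj {A B A' B' : 𝕄} (h : epsMat A B = epsMat A' B') : A = A' ∧ B = B' := by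
  refine ⟨Matrix.ext fun i j => ?_, Matrix.ext fun i j => ?_⟩
  · simpa [epsMat] using congrArg TrivSqZeroExt.fst (congrFun (congrFun h i) j)
  · simpa [epsMat] using congrArg TrivSqZeroExt.snd (congrFun (congrFun h i) j)

theorem snd_trace_epsMat (A B : 𝕄) : TrivSqZeroExt.snd (epsMat A B).trace = B.trace := by
  simp [epsMat, Matrix.trace_fin_two]

theorem det_epsMat_one (B : 𝕄) :
    (epsMat (1 : 𝕄) B).det = TrivSqZeroExt.inl 1 + TrivSqZeroExt.inr B.trace := by
  rw [Matrix.det_fin_two]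
  ext <;> simp [epsMat, Matrix.trace_fin_two]
  ring

theorem det_epsMat_zero (A : 𝕄) : (epsMat A 0).det = TrivSqZeroExt.inl A.det := by
  rw [Matrix.det_fin_two, Matrix.det_fin_two]
  ext <;> simp [epsMat]

theorem detCyclotomic_barMat {p : ℕ} {ρbar : ResidualGaloisRep k}
    (b₀ : Module.Basis (Fin 2) k ρbar.V)
    (hdet : (GaloisRepAdic.ofResidualGaloisRep ρbar).DetIsCyclotomic p) :
    DetCyclotomic (barMat ρbar b₀) p := fun σ a ha => by
  have h := hdet.2 1 σ a (fun μ hμ => ha μ (by simpa using hμ))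
  have hp : (p : k) = 0 := by
    by_contra h0
    exact hdet.1 (isUnit_iff_ne_zero.mpr h0)
  rw [pow_one, hp, Ideal.span_singleton_eq_bot.mpr rfl, Ideal.mem_bot, sub_eq_zero] at h
  rw [barMat_apply, LinearMap.det_toMatrix]
  exact h

/-- The cocycle of a lift. -/
theorem exists_cocycle_of_rep {p : ℕ} [Fact p.Prime] [CharP k p] (ρbar : ResidualGaloisRep k)
    (b₀ : Module.Basis (Fin 2) k ρbar.V) (ρ : GaloisRepAdic (DualNumber k))
    (h : ρ.residual.IsEquiv (ρbar.baseChangeAlong
      ((residue (DualNumber k)).comp (algebraMap k (DualNumber k)))))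
    (hdet : ρ.DetIsCyclotomic p) :
    ∃ (b : Module.Basis (Fin 2) (DualNumber k) ρ.V) (c : GQ → 𝕄),
      IsTangentCocycle (barMat ρbar b₀) c ∧
      ∀ σ, matOf ρ b σ = epsMat (barMat ρbar b₀ σ) (c σ * barMat ρbar b₀ σ) := by
  obtain ⟨b, hb⟩ := exists_basis_map_fst ρbar b₀ ρ h
  set M := barMat ρbar b₀
  let c : GQ → 𝕄 := fun σ => (matOf ρ b σ).map TrivSqZeroExt.snd * M σ⁻¹
  have hc : ∀ σ, matOf ρ b σ = epsMat (M σ) (c σ * M σ) := fun σ => by
    rw [mul_assoc, inv_mul_eq_one, mul_one, ← hb σ, epsMat_fst_snd]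
  have hmul : ∀ σ τ, c (σ * τ) = c σ + adAct M σ (c τ) := fun σ τ => by
    have h1 := hc (σ * τ)
    rw [map_mul, hc σ, hc τ, epsMat_mul] at h1
    have h2 := congrArg (· * M (σ * τ)⁻¹) (epsMat_inj h1).2
    simp only [mul_assoc (c (σ * τ)), mul_inv_eq_one, mul_one] at h2
    rw [← h2, _root_.mul_inv_rev, map_mul, adAct, add_mul]
    simp only [mul_assoc]
    rw [← mul_assoc (M τ) (M τ⁻¹), mul_inv_eq_one, one_mul, mul_inv_eq_one, mul_one, add_comm]
  refine ⟨b, c, ⟨hmul, fun σ => ?_, ?_⟩, hc⟩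
  · obtain ⟨a, ha⟩ := exists_cyclotomic_exponent p σ
    have hp : (p : DualNumber k) = 0 := by
      ext <;> simp [CharP.cast_eq_zero]
    have h1 := hdet.2 1 σ a (fun μ hμ => ha μ (by simpa using hμ))
    rw [pow_one, hp, Ideal.span_singleton_eq_bot.mpr rfl, Ideal.mem_bot, sub_eq_zero,
      ← LinearMap.det_toMatrix b, ← matOf_apply, hc,
      show epsMat (M σ) (c σ * M σ) = epsMat 1 (c σ) * epsMat (M σ) 0 by
        rw [epsMat_mul, one_mul, mul_zero, zero_add],
      Matrix.det_mul, det_epsMat_one, det_epsMat_zero] at h1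
    have h2 := congrArg TrivSqZeroExt.snd h1
    simp only [TrivSqZeroExt.snd_mul, TrivSqZeroExt.fst_add, TrivSqZeroExt.fst_inl,
      TrivSqZeroExt.fst_inr, TrivSqZeroExt.snd_inl, TrivSqZeroExt.snd_add, TrivSqZeroExt.snd_inr,
      TrivSqZeroExt.snd_natCast, zero_add, add_zero, smul_eq_mul,
      MulOpposite.smul_eq_mul_unop, MulOpposite.unop_op] at h2
    rw [mul_zero, zero_add] at h2
    refine (mul_eq_zero.mp h2).resolve_right fun h0 => ?_
    have := congrArg Matrix.det (mul_inv_eq_one M σ)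
    rw [Matrix.det_mul, h0, zero_mul, Matrix.det_one] at this
    exact zero_ne_one this
  · obtain ⟨L, hL, h1⟩ := mcont_matOf ρ b 2
    refine ⟨L, hL, fun σ hσ => ?_⟩
    have h2 : matOf ρ b σ = 1 := Matrix.ext fun i j =>
      sub_eq_zero.mp (maximalIdeal_sq_eq_zero (h1 σ hσ i j))
    show (matOf ρ b σ).map TrivSqZeroExt.snd * M σ⁻¹ = 0
    rw [h2, show (1 : Matrix (Fin 2) (Fin 2) (DualNumber k)).map TrivSqZeroExt.snd = 0 from
      Matrix.ext fun i j => by
        rcases eq_or_ne i j with rfl | hne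
        · simp
        · simp [hne], zero_mul]

end FLTAgent.TW
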