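import Fermat.Agent.Lower.Gen
import Fermat.Agent.Deform.PowerSeries
import Fermat.Agent.Deform.Tangent
import Fermat.Prelude.Def_GaloisRep_DeformationRingData

/-!
# Surjections from power series rings

`exists_mvPowerSeries_surjective`: if a complete local `O`-algebra has the residue field of `O`
and `x₁, …, x_r` generate its maximal ideal modulo that of `O`, then `O⟦X₁, …, X_r⟧` surjects
onto it. `exists_hom_dualNumber'`: an ideal containing the maximal ideal of `O` and strictly
inside that of `T` is killed by a surjection to `k[ε]`.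
-/

set_option autoImplicit false
set_option linter.style.haveILetI false
set_option linter.unusedSectionVars false

noncomputable section

namespace FLTAgent.TW

open IsLocalRing (maximalIdeal ResidueField)

variable {O : Type} [CommRing O] [IsDomain O] [IsDiscreteValuationRing O]
  {T : Type} [CommRing T] [IsLocalRing T] [IsNoetherianRing T] [Algebra O T]
  [IsLocalHom (algebraMap O T)]

local notation "k" => ResidueField O

/-- A quotient `T → k[ε]` killing a proper subideal of the maximal ideal containing `ϖ`. -/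
theorem exists_hom_dualNumber' (hres : Function.Surjective (IsLocalRing.residue T ∘ algebraMap O T))
    (J : Ideal T) (hJ : J ≤ maximalIdeal T)
    (hϖJ : ∀ a ∈ maximalIdeal O, algebraMap O T a ∈ J) (hne : J ≠ maximalIdeal T) :
    ∃ f : T →+* DualNumber k, Function.Surjective f ∧ (∀ t ∈ J, f t = 0) ∧
      (∀ a, f (algebraMap O T a) = TrivSqZeroExt.inl (IsLocalRing.residue O a)) ∧
      ∀ t, ResidueField.map (algebraMap O T) (TrivSqZeroExt.fst (f t)) = IsLocalRing.residue T t := by
  classical
  set m := maximalIdeal T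
  have hlt : J ⊔ m * m < m := by
    refine lt_of_le_of_ne (sup_le hJ Ideal.mul_le_left) fun h => hne (le_antisymm hJ ?_)
    exact Submodule.le_of_le_smul_of_le_jacobson_bot (IsNoetherian.noetherian m)
      (IsLocalRing.maximalIdeal_le_jacobson _) h.ge
  obtain ⟨K, ⟨hKle, hKlt⟩, hKmax⟩ := set_has_maximal_iff_noetherian.2
    (inferInstance : IsNoetherian T T) {K : Ideal T | J ⊔ m * m ≤ K ∧ K < m} ⟨_, le_rfl, hlt⟩
  obtain ⟨v, hvm, hvK⟩ := SetLike.exists_of_lt hKlt
  have hJK : J ≤ K := le_sup_left.trans hKle
  have hmm : ∀ {a b : T}, a ∈ m → b ∈ m → a * b ∈ K := fun ha hb =>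
    hKle (Ideal.mem_sup_right (Ideal.mul_mem_mul ha hb))
  -- the relation
  let R : T → k → k → Prop := fun t c d => ∃ a e : O, IsLocalRing.residue O a = c ∧
    IsLocalRing.residue O e = d ∧ t - algebraMap O T a - algebraMap O T e * v ∈ K
  have htot : ∀ t, ∃ c d, R t c d := fun t => by
    obtain ⟨a, ha⟩ := hres (IsLocalRing.residue T t)
    have htm : t - algebraMap O T a ∈ m := Ideal.Quotient.eq.1 ha.symm
    have hspan : K ⊔ Ideal.span {v} = m := by
      by_contra hh
      refine hKmax _ ⟨hKle.trans le_sup_left, lt_of_le_of_ne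
        (sup_le hKlt.le ((Ideal.span_singleton_le_iff_mem _).2 hvm)) hh⟩ (lt_of_le_of_ne
          le_sup_left fun h => hvK (h ▸ Ideal.mem_sup_right (Ideal.mem_span_singleton_self v)))
    rw [← hspan] at htm
    obtain ⟨κ, hκ, w, hw, hsum⟩ := Submodule.mem_sup.1 htm
    obtain ⟨s, rfl⟩ := Ideal.mem_span_singleton'.1 hw
    obtain ⟨e, he⟩ := hres (IsLocalRing.residue T s)
    refine ⟨_, _, a, e, rfl, rfl, ?_⟩
    rw [← hsum, show κ + s * v - algebraMap O T e * v = κ + (s - algebraMap O T e) * v by ring]
    exact add_mem hκ (hmm (Ideal.Quotient.eq.1 he.symm) hvm)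
  have huniq : ∀ {t c d c' d'}, R t c d → R t c' d' → c = c' ∧ d = d' := by
    rintro t c d c' d' ⟨a, e, rfl, rfl, h⟩ ⟨a', e', rfl, rfl, h'⟩
    have h2 := sub_mem h' h
    have hsub : algebraMap O T (a - a') ∈ m := by
      have h4 := hKlt.le h2
      rw [map_sub]
      have : algebraMap O T a - algebraMap O T a' =
          (t - algebraMap O T a' - algebraMap O T e' * v -
            (t - algebraMap O T a - algebraMap O T e * v)) -
          (algebraMap O T e - algebraMap O T e') * v := by ring
      rw [this]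
      exact sub_mem h4 (Ideal.mul_mem_left _ _ hvm)
    have haa : a - a' ∈ maximalIdeal O := by
      rw [IsLocalRing.mem_maximalIdeal, mem_nonunits_iff]
      exact fun hu => hsub (hu.map (algebraMap O T))
    refine ⟨Ideal.Quotient.eq.2 haa, Ideal.Quotient.eq.2 ?_⟩
    rw [IsLocalRing.mem_maximalIdeal, mem_nonunits_iff]
    intro hu
    refine hvK ((Ideal.unit_mul_mem_iff_mem K (hu.map (algebraMap O T))).1 ?_)
    rw [show algebraMap O T (e - e') * v =
      (t - algebraMap O T a' - algebraMap O T e' * v -
        (t - algebraMap O T a - algebraMap O T e * v)) - algebraMap O T (a - a') by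
          simp only [map_sub]; ring]
    exact sub_mem h2 (hJK (hϖJ _ haa))
  choose c d hcd using htot
  have heq : ∀ {t c' d'}, R t c' d' → c t = c' ∧ d t = d' := fun h => huniq (hcd _) h
  let F : T → DualNumber k := fun t => TrivSqZeroExt.inl (c t) + TrivSqZeroExt.inr (d t)
  have hF : ∀ {t c' d'}, R t c' d' → F t = TrivSqZeroExt.inl c' + TrivSqZeroExt.inr d' := fun h => by
    simp only [F, (heq h).1, (heq h).2]
  have hFalg : ∀ a : O, F (algebraMap O T a) = TrivSqZeroExt.inl (IsLocalRing.residue O a) := fun a => by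
    rw [hF (c' := IsLocalRing.residue O a) (d' := 0) ⟨a, 0, rfl, map_zero _, by simp⟩,
      TrivSqZeroExt.inr_zero, add_zero]
  have hadd : ∀ s t, F (s + t) = F s + F t := fun s t => by
    obtain ⟨a, e, ha, he, h⟩ := hcd s
    obtain ⟨a', e', ha', he', h'⟩ := hcd t
    rw [hF (c' := c s + c t) (d' := d s + d t) ⟨a + a', e + e', by rw [map_add, ha, ha'],
      by rw [map_add, he, he'], by
        convert add_mem h h' using 1
        simp only [map_add]; ring⟩]
    simp only [F, TrivSqZeroExt.inl_add, TrivSqZeroExt.inr_add]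
    abel
  have hmul : ∀ s t, F (s * t) = F s * F t := fun s t => by
    obtain ⟨a, e, ha, he, h⟩ := hcd s
    obtain ⟨a', e', ha', he', h'⟩ := hcd t
    rw [hF (c' := c s * c t) (d' := c s * d t + d s * c t)
      ⟨a * a', a * e' + e * a', by rw [map_mul, ha, ha'],
        by rw [map_add, map_mul, map_mul, ha, he, ha', he'], by
        set κ := s - algebraMap O T a - algebraMap O T e * v
        set κ' := t - algebraMap O T a' - algebraMap O T e' * v
        have : s * t - algebraMap O T (a * a') - algebraMap O T (a * e' + e * a') * v =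
            κ * t + (algebraMap O T a + algebraMap O T e * v) * κ' +
              algebraMap O T e * algebraMap O T e' * (v * v) := by
          simp only [κ, κ', map_add, map_mul]; ring
        rw [this]
        exact add_mem (add_mem (Ideal.mul_mem_right _ K h) (Ideal.mul_mem_left K _ h'))
          (Ideal.mul_mem_left K _ (hmm hvm hvm))⟩]
    ext <;> simp [F]
  let f : T →+* DualNumber k :=
    { toFun := F
      map_one' := by rw [← map_one (algebraMap O T), hFalg, map_one, TrivSqZeroExt.inl_one]
      map_mul' := hmul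
      map_zero' := by rw [← map_zero (algebraMap O T), hFalg, map_zero, TrivSqZeroExt.inl_zero]
      map_add' := hadd }
  refine ⟨f, fun z => ?_, fun t ht => ?_, hFalg, fun t => ?_⟩
  · obtain ⟨a, ha⟩ := IsLocalRing.residue_surjective (TrivSqZeroExt.fst z)
    obtain ⟨e, he⟩ := IsLocalRing.residue_surjective (TrivSqZeroExt.snd z)
    refine ⟨algebraMap O T a + algebraMap O T e * v, ?_⟩
    change F _ = z
    rw [hF (c' := TrivSqZeroExt.fst z) (d' := TrivSqZeroExt.snd z)
      ⟨a, e, ha, he, by simp⟩, TrivSqZeroExt.inl_fst_add_inr_snd_eq]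
  · change F t = 0
    rw [hF (c' := 0) (d' := 0) ⟨0, 0, map_zero _, map_zero _, by simpa using hJK ht⟩,
      TrivSqZeroExt.inl_zero, TrivSqZeroExt.inr_zero, add_zero]
  · obtain ⟨a, e, ha, he, h⟩ := hcd t
    have h1 : TrivSqZeroExt.fst (f t) = IsLocalRing.residue O a := by simp [f, F, ha]
    rw [h1, ResidueField.map_residue]
    refine (Ideal.Quotient.eq.2 ?_).symm
    have h2 := add_mem (hKlt.le h) (m.mul_mem_left (algebraMap O T e) hvm)
    rwa [sub_add_cancel] at h2

/-- Power series surject onto a complete ring whose maximal ideal they generate. -/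
theorem exists_mvPowerSeries_surjective [IsAdicComplete (maximalIdeal O) O]
    [IsAdicComplete (maximalIdeal T) T]
    (hres : Function.Surjective (IsLocalRing.residue T ∘ algebraMap O T)) {r : ℕ} (x : Fin r → T)
    (hgen : maximalIdeal T = (maximalIdeal O).map (algebraMap O T) ⊔ Ideal.span (Set.range x)) :
    ∃ γ : MvPowerSeries (Fin r) O →ₐ[O] T, Function.Surjective γ := by
  classical
  let t : ∀ n : ℕ, Fin r → T ⧸ maximalIdeal T ^ n := fun n i => Ideal.Quotient.mk _ (x i)
  have ht : ∀ n, MvPolynomial.idealOfVars (Fin r) O ^ n ≤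
      RingHom.ker (MvPolynomial.aeval (R := O) (t n)) := fun n => by
    refine (Ideal.map_eq_bot_iff_le_ker _).1 ?_
    rw [Ideal.map_pow, eq_bot_iff]
    refine le_trans (Ideal.pow_right_mono (J := (maximalIdeal T).map (Ideal.Quotient.mk _)) ?_ n) ?_
    · rw [MvPolynomial.idealOfVars, Ideal.map_span, Ideal.span_le]
      rintro _ ⟨_, ⟨i, rfl⟩, rfl⟩
      rw [MvPolynomial.aeval_X]
      exact Ideal.mem_map_of_mem _
        (hgen.symm.le (Ideal.mem_sup_right (Ideal.subset_span ⟨i, rfl⟩)))
    · rw [← Ideal.map_pow, Ideal.map_quotient_self]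
  let f : ∀ n, MvPowerSeries (Fin r) O →ₐ[O] T ⧸ maximalIdeal T ^ n :=
    fun n => FLTAgent.Deform.evalTrunc n (t n) (ht n)
  have hf : ∀ {m n : ℕ} (hle : m ≤ n),
      (Ideal.Quotient.factorₐ O (Ideal.pow_le_pow_right hle)).comp (f n) = f m := fun {m n} hle =>
    AlgHom.ext fun z => FLTAgent.Deform.evalTrunc_comp (A := T ⧸ maximalIdeal T ^ n) n (t n) (ht n)
      (Ideal.Quotient.factorₐ O (Ideal.pow_le_pow_right hle)) m hle (t m) (ht m) (fun i => rfl) z
  let γ : MvPowerSeries (Fin r) O →ₐ[O] T := IsAdicComplete.liftAlgHom (maximalIdeal T) f hf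
  have hγ : ∀ i, γ (MvPowerSeries.X i) = x i := fun i => by
    refine IsHausdorff.eq_iff_smodEq (I := maximalIdeal T) |>.2 fun n => ?_
    rw [SModEq.sub_mem, smul_eq_mul, Ideal.mul_top, ← Ideal.Quotient.eq,
      IsAdicComplete.mk_liftAlgHom, ← MvPolynomial.coe_X, FLTAgent.Deform.evalTrunc_coe,
      MvPolynomial.aeval_X]
  refine ⟨γ, ?_⟩
  haveI hpre : IsPrecomplete (maximalIdeal (MvPowerSeries (Fin r) O)) (MvPowerSeries (Fin r) O) :=
    FLTAgent.Deform.isPrecomplete_mvPowerSeries
  have hmap : (maximalIdeal (MvPowerSeries (Fin r) O)).map (γ : MvPowerSeries (Fin r) O →+* T) =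
      maximalIdeal T := by
    refine le_antisymm (Ideal.map_le_iff_le_comap.2 fun z hz => ?_) (hgen.le.trans (sup_le ?_ ?_))
    · rw [Ideal.mem_comap, IsLocalRing.mem_maximalIdeal, mem_nonunits_iff]
      intro hu
      have hz0 : IsLocalRing.residue O (MvPowerSeries.constantCoeff z) = 0 := by
        rw [IsLocalRing.residue_eq_zero_iff, IsLocalRing.mem_maximalIdeal, mem_nonunits_iff,
          ← MvPowerSeries.isUnit_iff_constantCoeff]
        exact hz
      have h0 := IsAdicComplete.mk_liftAlgHom (maximalIdeal T) f hf 1 z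
      have h1 : f 1 z = algebraMap O _ (MvPowerSeries.constantCoeff z) := by
        show MvPolynomial.aeval (t 1) (MvPowerSeries.truncTotal 1 z) = _
        have hc : MvPowerSeries.truncTotal 1 z = MvPolynomial.C (MvPowerSeries.constantCoeff z) := by
          ext d
          by_cases hd : d = 0
          · subst hd
            rw [MvPowerSeries.coeff_truncTotal _ (by simp)]
            simp
          · rw [MvPolynomial.coeff_C, if_neg (Ne.symm hd),
              MvPowerSeries.coeff_truncTotal_eq_zero]
            by_contra hlt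
            exact hd ((Finsupp.degree_eq_zero_iff d).1 (by omega))
        rw [hc, MvPolynomial.aeval_C]
      rw [h1, ← Ideal.Quotient.mk_algebraMap, Ideal.Quotient.eq, pow_one] at h0
      refine (IsLocalRing.mem_maximalIdeal _).1 ?_ hu
      have h2 : algebraMap O T (MvPowerSeries.constantCoeff z) ∈ maximalIdeal T :=
        (map_nonunit (algebraMap O T) _ ((IsLocalRing.residue_eq_zero_iff _).1 hz0))
      simpa using add_mem h0 h2
    · refine Ideal.map_le_iff_le_comap.2 fun a ha => ?_
      rw [Ideal.mem_comap, ← γ.commutes a]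
      refine Ideal.mem_map_of_mem _ ?_
      rw [IsLocalRing.mem_maximalIdeal, mem_nonunits_iff, MvPowerSeries.algebraMap_apply,
        MvPowerSeries.isUnit_iff_constantCoeff, MvPowerSeries.constantCoeff_C]
      simpa using ha
    · rw [Ideal.span_le]
      rintro _ ⟨i, rfl⟩
      rw [← hγ i]
      refine Ideal.mem_map_of_mem _ ?_
      rw [IsLocalRing.mem_maximalIdeal, mem_nonunits_iff, MvPowerSeries.isUnit_iff_constantCoeff,
        MvPowerSeries.constantCoeff_X]
      exact not_isUnit_zero
  haveI : IsHausdorff ((maximalIdeal (MvPowerSeries (Fin r) O)).map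
      (γ : MvPowerSeries (Fin r) O →+* T)) T := by
    rw [hmap]; infer_instance
  refine surjective_of_mk_map_comp_surjective
    (I := maximalIdeal (MvPowerSeries (Fin r) O)) (γ : MvPowerSeries (Fin r) O →+* T) fun q => ?_
  obtain ⟨u, rfl⟩ := Ideal.Quotient.mk_surjective q
  obtain ⟨a, ha⟩ := hres (IsLocalRing.residue T u)
  refine ⟨algebraMap O _ a, ?_⟩
  show Ideal.Quotient.mk _ (γ (algebraMap O _ a)) = _
  rw [γ.commutes, Ideal.Quotient.eq, hmap]
  exact Ideal.Quotient.eq.1 ha

end FLTAgent.TW
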