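import Fermat.Agent.TW.Gen
import Fermat.Agent.TW.Transport
import Fermat.Agent.TW.Global.GroupFacts
import Fermat.Agent.Lower.Bases
import Fermat.Agent.Lower.Galois
import Fermat.Prelude.Def_GaloisRep_DeformationRingData
import Fermat.Prelude.Thm_IsLocalRing_isAdicComplete_of_module_finite

/-!
# Detecting test elements give generators of a universal deformation ring

If the traces at `g` test elements detect every first order deformation of a given type, then the
universal ring is a quotient of the power series ring in `g` variables: a first order deformation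
with constant traces is trivial (residual absolute irreducibility), so by universality the
corresponding map to `k[ε]` cannot be surjective (`exists_surjective_of_tests`).
-/

set_option autoImplicit false
set_option linter.style.haveILetI false

noncomputable section

namespace FLTAgent.TW

open Matrix IsLocalRing FLTAgent.Deform
open scoped DualNumber

variable {k : Type} [Field k]

/-- A first order deformation with constant traces is the trivial one. -/
theorem isEquiv_liftRep_zero [Finite k] {p : ℕ} [Fact p.Prime] [CharP k p]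
    (ρbar : ResidualGaloisRep k) (b₀ : Module.Basis (Fin 2) k ρbar.V)
    (hA : Adequate (barMat ρbar b₀) p) (ρ : GaloisRepAdic (DualNumber k))
    (hres : ρ.residual.IsEquiv (ρbar.baseChangeAlong
      ((residue (DualNumber k)).comp (algebraMap k (DualNumber k)))))
    (hdet : ρ.DetIsCyclotomic p) (htr : ∀ τ, TrivSqZeroExt.snd (ρ.trace τ) = 0) :
    ρ.IsEquiv (liftRep hA.finite (tangentCocycles (barMat ρbar b₀)).zero_mem) := by
  set M := barMat ρbar b₀
  obtain ⟨b, c, hc, hb⟩ := exists_cocycle_of_rep (p := p) ρbar b₀ ρ hres hdet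
  obtain ⟨X, -, rfl⟩ := exists_coboundary_of_trace hA hc fun τ =>
    (trace_snd_of_matOf ρ b hb τ).symm.trans (htr τ)
  obtain ⟨e⟩ := isEquiv_liftRep hA.finite hc ρ b hb
  let U : (Matrix (Fin 2) (Fin 2) (DualNumber k))ˣ :=
    ⟨epsMat 1 X, epsMat 1 (-X), by rw [epsMat_mul]; simp [epsMat_one_zero],
      by rw [epsMat_mul]; simp [epsMat_one_zero]⟩
  obtain ⟨e'⟩ := toRep_conj U (mcont_liftMat hA.finite hc)
    (mcont_liftMat hA.finite (tangentCocycles M).zero_mem) (MonoidHom.ext fun σ => by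
      show epsMat 1 X * epsMat (M σ) (coboundary M X σ * M σ) * epsMat 1 (-X) =
        epsMat (M σ) ((0 : GQ → Matrix (Fin 2) (Fin 2) k) σ * M σ)
      rw [epsMat_mul, epsMat_mul]
      congr 1
      · simp
      · show (1 : Matrix (Fin 2) (Fin 2) k) * M σ * -X +
          ((1 : Matrix (Fin 2) (Fin 2) k) * ((M σ * X * M σ⁻¹ - X) * M σ) + X * M σ) * 1 = 0 * M σ
        simp only [sub_mul, mul_assoc, inv_mul_eq_one, mul_one, one_mul, zero_mul, mul_neg]
        abel)
  exact ⟨e.trans e'⟩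

section

variable {O : Type} [CommRing O] [IsDomain O] [IsDiscreteValuationRing O]
  {T : Type} [CommRing T] [IsLocalRing T] [Algebra O T] [IsLocalHom (algebraMap O T)]

/-- The residual representation of a base change to `k[ε]` compatible with residues. -/
theorem residual_isEquiv_dualNumber' (ρ : GaloisRepAdic T)
    {ρbar : ResidualGaloisRep (ResidueField O)}
    (he : ρ.residual.IsEquiv (ρbar.baseChangeAlong (ResidueField.map (algebraMap O T))))
    (f : T →+* DualNumber (ResidueField O)) (hfl : IsLocalHom f)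
    (hffst : ∀ t, ResidueField.map (algebraMap O T) (TrivSqZeroExt.fst (f t)) = residue T t) :
    (ρ.baseChangeAlong f hfl).residual.IsEquiv
      (ρbar.baseChangeAlong ((residue (DualNumber (ResidueField O))).comp
        (algebraMap (ResidueField O) (DualNumber (ResidueField O))))) := by
  let c₀ := Module.finBasisOfFinrankEq (ResidueField O) ρbar.V ρbar.finrank_eq
  obtain ⟨b', hb'⟩ := Lower.exists_basis_residual ρ ρbar c₀ _ he
  let j₀ := (residue (DualNumber (ResidueField O))).comp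
    (algebraMap (ResidueField O) (DualNumber (ResidueField O)))
  letI : Algebra (ResidueField O) (ResidueField (DualNumber (ResidueField O))) := j₀.toAlgebra
  refine residualGaloisRep_isEquiv_of_toMatrix
    (Algebra.TensorProduct.basis (ResidueField (DualNumber (ResidueField O)))
      (bcBasis f hfl ρ b'))
    (Algebra.TensorProduct.basis (ResidueField (DualNumber (ResidueField O))) c₀) fun g => ?_
  show LinearMap.toMatrix _ _ (((ρ.baseChangeAlong f hfl).ρ g).baseChange _) =
    LinearMap.toMatrix _ _ ((ρbar.ρ g).baseChange _)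
  rw [LinearMap.toMatrix_baseChange, LinearMap.toMatrix_baseChange]
  have h1 : LinearMap.toMatrix (bcBasis f hfl ρ b') (bcBasis f hfl ρ b')
      ((ρ.baseChangeAlong f hfl).ρ g) = (matOf ρ b' g).map f :=
    DFunLike.congr_fun (matOf_baseChangeAlong f hfl ρ b') g
  rw [h1]
  ext i j
  simp only [Matrix.map_apply]
  have h2 : residue T (matOf ρ b' g i j) =
      ResidueField.map (algebraMap O T) (LinearMap.toMatrix c₀ c₀ (ρbar.ρ g) i j) := by
    have h3 := congrFun (congrFun (hb' g) i) j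
    simp only [RingHom.mapMatrix_apply, Matrix.map_apply, Lower.resMat, Matrix.of_apply,
      Lower.matHom_apply] at h3
    rw [matOf_apply, LinearMap.toMatrix_apply, LinearMap.toMatrix_apply]
    exact h3
  rw [← hffst] at h2
  show residue _ (f (matOf ρ b' g i j)) = residue _ (TrivSqZeroExt.inl _)
  rw [residue_eq_residue_inl, (ResidueField.map (algebraMap O T)).injective h2]
  rfl

end

theorem trace_baseChangeAlong_apply {A B : Type} [CommRing A] [IsLocalRing A] [CommRing B]
    [IsLocalRing B] (f : A →+* B) (hf : IsLocalHom f) (ρ : GaloisRepAdic A) (τ : GQ) :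
    (ρ.baseChangeAlong f hf).trace τ = f (ρ.trace τ) := by
  letI : Algebra A B := f.toAlgebra
  exact LinearMap.trace_baseChange (ρ.ρ τ) B

/-- The dual numbers of a field are complete. -/
theorem isAdicComplete_dualNumber (k : Type) [Field k] :
    IsAdicComplete (maximalIdeal (DualNumber k)) (DualNumber k) := by
  haveI : IsAdicComplete (maximalIdeal k) k := by
    rw [(Ideal.eq_bot_or_top (maximalIdeal k)).resolve_right
      (Ideal.IsMaximal.ne_top inferInstance)]
    infer_instance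
  haveI : Module.Finite k (DualNumber k) := inferInstanceAs (Module.Finite k (k × k))
  haveI : IsLocalHom (algebraMap k (DualNumber k)) := ⟨fun a ha => by
    rw [TrivSqZeroExt.algebraMap_eq_inl, TrivSqZeroExt.isUnit_iff_isUnit_fst,
      TrivSqZeroExt.fst_inl] at ha
    exact ha⟩
  exact IsLocalRing.isAdicComplete_of_module_finite (𝒪 := k)

section

variable {𝒪 : Type} [CommRing 𝒪] [IsDomain 𝒪] [IsDiscreteValuationRing 𝒪]
  [IsAdicComplete (maximalIdeal 𝒪) 𝒪] [Finite (ResidueField 𝒪)]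

local notation "𝕜" => ResidueField 𝒪

/-- Test elements detecting the first order deformations give generators. -/
theorem exists_surjective_of_tests {p : ℕ} [Fact p.Prime] [CharP (ResidueField 𝒪) p]
    {ρbar : ResidualGaloisRep (ResidueField 𝒪)}
    {𝒟 : ∀ ⦃A : Type⦄ [CommRing A] [IsLocalRing A] [Algebra 𝒪 A], GaloisRepAdic A → Prop}
    (DQ : GaloisRep.DeformationRingData 𝒪 ρbar 𝒟)
    (b₀ : Module.Basis (Fin 2) (ResidueField 𝒪) ρbar.V)
    (hA : Adequate (barMat ρbar b₀) p) (hdet : DQ.ρ.DetIsCyclotomic p)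
    (hbc : letI := Deform.epsAlgebra (𝒪 := 𝒪)
      ∀ (f : DQ.R →+* DualNumber 𝕜) (hf : IsLocalHom f), Function.Surjective f →
        𝒟 (DQ.ρ.baseChangeAlong f hf))
    {g : ℕ} (σ : Fin g → GQ)
    (htan : letI := Deform.epsAlgebra (𝒪 := 𝒪)
      ∀ ρ' : GaloisRepAdic (DualNumber 𝕜),
        ρ'.residual.IsEquiv (ρbar.baseChangeAlong
          ((residue (DualNumber 𝕜)).comp (algebraMap 𝕜 (DualNumber 𝕜)))) → 𝒟 ρ' →
        (∀ j, TrivSqZeroExt.snd (ρ'.trace (σ j)) = 0) →
          ∀ τ, TrivSqZeroExt.snd (ρ'.trace τ) = 0) :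
    ∃ γ : MvPowerSeries (Fin g) 𝒪 →ₐ[𝒪] DQ.R, Function.Surjective γ := by
  classical
  letI := Deform.epsAlgebra (𝒪 := 𝒪)
  have hresT := DQ.residue_surjective
  choose a ha using fun j => hresT (residue DQ.R (DQ.ρ.trace (σ j)))
  let x : Fin g → DQ.R := fun j => DQ.ρ.trace (σ j) - algebraMap 𝒪 DQ.R (a j)
  set J := (maximalIdeal 𝒪).map (algebraMap 𝒪 DQ.R) ⊔ Ideal.span (Set.range x) with hJ
  refine exists_mvPowerSeries_surjective hresT x ?_
  rw [← hJ]
  by_contra hne
  have hJm : J ≤ maximalIdeal DQ.R := by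
    refine sup_le (Ideal.map_le_iff_le_comap.2 fun c hc => map_nonunit (algebraMap 𝒪 DQ.R) c hc)
      (Ideal.span_le.2 ?_)
    rintro _ ⟨j, rfl⟩
    exact Ideal.Quotient.eq.1 (ha j).symm
  obtain ⟨f, hfs, hfJ, hfalg, hffst⟩ := exists_hom_dualNumber' hresT J hJm
    (fun c hc => Ideal.mem_sup_left (Ideal.mem_map_of_mem _ hc)) (Ne.symm hne)
  haveI hfl : IsLocalHom f := IsLocalHom.of_surjective f hfs
  -- the constant map with the same reduction
  let f₀ : DQ.R →+* DualNumber 𝕜 := (TrivSqZeroExt.inlHom 𝕜 𝕜).comp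
    ((TrivSqZeroExt.fstHom 𝕜 𝕜 𝕜).toRingHom.comp f)
  have hf₀ : ∀ t, f₀ t = TrivSqZeroExt.inl (TrivSqZeroExt.fst (f t)) := fun t => rfl
  haveI hf₀l : IsLocalHom f₀ := ⟨fun t ht => by
    refine hfl.map_nonunit t ?_
    rw [hf₀, TrivSqZeroExt.isUnit_iff_isUnit_fst, TrivSqZeroExt.fst_inl] at ht
    rwa [TrivSqZeroExt.isUnit_iff_isUnit_fst]⟩
  have hf₀fst : ∀ t, ResidueField.map (algebraMap 𝒪 DQ.R) (TrivSqZeroExt.fst (f₀ t)) =
      residue DQ.R t := fun t => by rw [hf₀, TrivSqZeroExt.fst_inl, hffst]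
  let ρ₁ := DQ.ρ.baseChangeAlong f hfl
  let ρ₀ := DQ.ρ.baseChangeAlong f₀ hf₀l
  have hres₁ := residual_isEquiv_dualNumber' DQ.ρ DQ.residual_isEquiv f hfl hffst
  have hres₀ := residual_isEquiv_dualNumber' DQ.ρ DQ.residual_isEquiv f₀ hf₀l hf₀fst
  have hD : 𝒟 ρ₁ := hbc f hfl hfs
  have hall : ∀ τ, TrivSqZeroExt.snd (ρ₁.trace τ) = 0 := htan ρ₁ hres₁ hD fun j => by
    have h1 : f (x j) = 0 := hfJ _ (Ideal.mem_sup_right (Ideal.subset_span ⟨j, rfl⟩))
    rw [map_sub, sub_eq_zero] at h1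
    rw [trace_baseChangeAlong_apply, h1, hfalg, TrivSqZeroExt.snd_inl]
  have hall₀ : ∀ τ, TrivSqZeroExt.snd (ρ₀.trace τ) = 0 := fun τ => by
    rw [trace_baseChangeAlong_apply, hf₀, TrivSqZeroExt.snd_inl]
  obtain ⟨e₁⟩ := isEquiv_liftRep_zero ρbar b₀ hA ρ₁ hres₁
    (Lower.detIsCyclotomic_baseChangeAlong f hfl hdet) hall
  obtain ⟨e₀⟩ := isEquiv_liftRep_zero ρbar b₀ hA ρ₀ hres₀
    (Lower.detIsCyclotomic_baseChangeAlong f₀ hf₀l hdet) hall₀
  haveI : IsLocalHom (algebraMap 𝒪 (DualNumber 𝕜)) := ⟨fun c hc => by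
    change IsUnit (TrivSqZeroExt.inl (residue 𝒪 c) : DualNumber 𝕜) at hc
    rw [TrivSqZeroExt.isUnit_iff_isUnit_fst, TrivSqZeroExt.fst_inl] at hc
    exact (isUnit_map_iff (residue 𝒪) c).1 hc⟩
  haveI : Finite (DualNumber 𝕜) := Deform.finite_dualNumber (𝒪 := 𝒪)
  haveI := isAdicComplete_dualNumber 𝕜
  have hresE : Function.Surjective (residue (DualNumber 𝕜) ∘ algebraMap 𝒪 (DualNumber 𝕜)) := by
    intro y
    obtain ⟨z, rfl⟩ := residue_surjective y
    obtain ⟨c, hc⟩ := residue_surjective (TrivSqZeroExt.fst z)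
    exact ⟨c, (residue_eq_residue_inl z).symm ▸ congrArg (residue _)
      (congrArg TrivSqZeroExt.inl hc)⟩
  have hmap : ResidueField.map (algebraMap 𝒪 (DualNumber 𝕜)) =
      (residue (DualNumber 𝕜)).comp (algebraMap 𝕜 (DualNumber 𝕜)) := RingHom.ext fun y => by
    obtain ⟨c, rfl⟩ := residue_surjective y
    rfl
  obtain ⟨φ, -, huniq⟩ := DQ.universal (DualNumber 𝕜) hresE ρ₁ hD (hmap ▸ hres₁)
  let φ₁ : DQ.R →ₐ[𝒪] DualNumber 𝕜 := { f with commutes' := hfalg }
  have hf₀alg : ∀ c, f₀ (algebraMap 𝒪 DQ.R c) = algebraMap 𝒪 (DualNumber 𝕜) c := fun c => by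
    rw [hf₀, hfalg, TrivSqZeroExt.fst_inl]; rfl
  let φ₀ : DQ.R →ₐ[𝒪] DualNumber 𝕜 := { f₀ with commutes' := hf₀alg }
  have h₁ : φ₁ = φ := huniq φ₁ ⟨hfl, ⟨GaloisRepAdic.Equiv.refl _⟩⟩
  have h₀ : φ₀ = φ := huniq φ₀ ⟨hf₀l, ⟨e₀.trans e₁.symm⟩⟩
  obtain ⟨t, ht⟩ := hfs (TrivSqZeroExt.inr 1)
  have h2 : f t = f₀ t := DFunLike.congr_fun (h₁.trans h₀.symm) t
  rw [hf₀, ht] at h2
  exact one_ne_zero (α := 𝕜) (by simpa using congrArg TrivSqZeroExt.snd h2)

end

end FLTAgent.TW
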